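import Fermat.Agent.S55.H49.LcExact

/-!
# S55 / C9b leaf (LC-ELT) (helper99): the long exact cohomology sequence in element form

For a short exact sequence `S` of cochain complexes of `k`-modules (e.g.
`S = X.map (H49.lcFunctor k D)` for a short exact sequence `X` of representations, by
`H49.lc_shortExact` or by `H99.lcShortExact_of_pointwise`):

* `delta hS n : Hⁿ(S.X₃) →ₗ[k] Hⁿ⁺¹(S.X₁)`, the connecting homomorphism as a linear map;
* the six exactness / zero statements in element form (`g_f_apply`, `exact_mid`,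
  `delta_g_apply`, `exact_right`, `f_delta_apply`, `exact_left`);
* `delta_cls`: the cocycle formula for `delta` in helper49's `cyc` / `cls` vocabulary;
* the specialisations `lc_…` to `Hlc`.
-/

set_option autoImplicit false

open CategoryTheory HomologicalComplex
open Fermat.Agent.S55.H49

noncomputable section

namespace Fermat.Agent.S55.H99

variable {k : Type} [CommRing k] {S : ShortComplex (CochainComplex (ModuleCat.{0} k) ℕ)}

/-- The connecting homomorphism `Hⁿ(S.X₃) → Hⁿ⁺¹(S.X₁)`, as a linear map. -/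
def delta (hS : S.ShortExact) (n : ℕ) : S.X₃.homology n →ₗ[k] S.X₁.homology (n + 1) :=
  (hS.δ n (n + 1) rfl).hom

/-- (E1) `g_* ∘ f_* = 0`. -/
theorem g_f_apply (n : ℕ) (x : S.X₁.homology n) :
    (homologyMap S.g n).hom ((homologyMap S.f n).hom x) = 0 := by
  have h : homologyMap S.f n ≫ homologyMap S.g n = 0 := by
    rw [← homologyMap_comp, S.zero, homologyMap_zero]
  exact LinearMap.congr_fun (ModuleCat.hom_ext_iff.mp h) x

/-- (E2) exactness at `Hⁿ(S.X₂)`. -/
theorem exact_mid (hS : S.ShortExact) (n : ℕ) (y : S.X₂.homology n)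
    (hy : (homologyMap S.g n).hom y = 0) : ∃ x, (homologyMap S.f n).hom x = y :=
  (ShortComplex.moduleCat_exact_iff _).1 (hS.homology_exact₂ n) y hy

/-- (E3) `δ ∘ g_* = 0`. -/
theorem delta_g_apply (hS : S.ShortExact) (n : ℕ) (y : S.X₂.homology n) :
    delta hS n ((homologyMap S.g n).hom y) = 0 :=
  LinearMap.congr_fun (ModuleCat.hom_ext_iff.mp (hS.comp_δ n (n + 1) rfl)) y

/-- (E4) exactness at `Hⁿ(S.X₃)`. -/
theorem exact_right (hS : S.ShortExact) (n : ℕ) (z : S.X₃.homology n)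
    (hz : delta hS n z = 0) : ∃ y, (homologyMap S.g n).hom y = z :=
  (ShortComplex.moduleCat_exact_iff _).1 (hS.homology_exact₃ n (n + 1) rfl) z hz

/-- (E5) `f_* ∘ δ = 0`. -/
theorem f_delta_apply (hS : S.ShortExact) (n : ℕ) (z : S.X₃.homology n) :
    (homologyMap S.f (n + 1)).hom (delta hS n z) = 0 :=
  LinearMap.congr_fun (ModuleCat.hom_ext_iff.mp (hS.δ_comp n (n + 1) rfl)) z

/-- (E6) exactness at `Hⁿ⁺¹(S.X₁)`. -/
theorem exact_left (hS : S.ShortExact) (n : ℕ) (x : S.X₁.homology (n + 1))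
    (hx : (homologyMap S.f (n + 1)).hom x = 0) : ∃ z, delta hS n z = x :=
  (ShortComplex.moduleCat_exact_iff _).1 (hS.homology_exact₁ n (n + 1) rfl) x hx

/-- Mathlib's `cyclesMk` is helper49's `cycToCycles`. -/
theorem cyclesMk_eq_cycToCycles (K : CochainComplex (ModuleCat.{0} k) ℕ) (n : ℕ) (z : cyc K n)
    (j : ℕ) (hj : (ComplexShape.up ℕ).next n = j)
    (hz : ((forget₂ (ModuleCat.{0} k) Ab).map (K.d n j)) z.1 = 0) :
    K.cyclesMk z.1 j hj hz = (cycToCycles K n).hom z := by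
  apply iCycles_injective K n
  rw [iCycles_cycToCycles]
  exact K.i_cyclesMk z.1 j hj hz

/-- **The cocycle formula for the connecting homomorphism**: if `z` is an `n`-cocycle of `S.X₃`,
`y ∈ S.X₂ⁿ` lifts `z`, and the `(n+1)`-cocycle `x` of `S.X₁` maps to `d y`, then
`δ [z] = [x]`. -/
theorem delta_cls (hS : S.ShortExact) (n : ℕ) (z : cyc S.X₃ n) (y : S.X₂.X n)
    (hy : (S.g.f n).hom y = z.1) (x : cyc S.X₁ (n + 1))
    (hx : (S.f.f (n + 1)).hom x.1 = (S.X₂.d n (n + 1)).hom y) :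
    delta hS n ((cls S.X₃ n).hom z) = (cls S.X₁ (n + 1)).hom x := by
  have hz : ((forget₂ (ModuleCat.{0} k) Ab).map (S.X₃.d n (n + 1))) z.1 = 0 := mem_cyc.mp z.2
  have key := hS.δ_apply n (n + 1) rfl z.1 hz y hy x.1 hx (n + 1 + 1) (by simp)
  rw [cyclesMk_eq_cycToCycles S.X₃ n z (n + 1) _ hz] at key
  have hx0 : ((forget₂ (ModuleCat.{0} k) Ab).map (S.X₁.d (n + 1) (n + 1 + 1))) x.1 = 0 :=
    mem_cyc.mp x.2
  rw [cyclesMk_eq_cycToCycles S.X₁ (n + 1) x (n + 1 + 1) (by simp) hx0] at key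
  exact key

/-! ### Specialisation to level-constant cohomology -/

section Lc

variable {G : Type} [Group G] (D : LevelDatum G) {X : ShortComplex (Rep.{0} k G)}
  (hX : (X.map (lcFunctor k D)).ShortExact)

/-- The connecting homomorphism `Hlcⁿ(X₃) → Hlcⁿ⁺¹(X₁)`. -/
def lcDelta (n : ℕ) : Hlc D X.X₃ n →ₗ[k] Hlc D X.X₁ (n + 1) :=
  delta hX n

/-- `f_* : Hlcⁿ(X₁) → Hlcⁿ(X₂)`. -/
def lcF (D : LevelDatum G) (X : ShortComplex (Rep.{0} k G)) (n : ℕ) :
    Hlc D X.X₁ n →ₗ[k] Hlc D X.X₂ n :=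
  (homologyMap (lcMapCoeff D X.f) n).hom

/-- `g_* : Hlcⁿ(X₂) → Hlcⁿ(X₃)`. -/
def lcG (D : LevelDatum G) (X : ShortComplex (Rep.{0} k G)) (n : ℕ) :
    Hlc D X.X₂ n →ₗ[k] Hlc D X.X₃ n :=
  (homologyMap (lcMapCoeff D X.g) n).hom

theorem lc_g_f_apply (n : ℕ) (x : Hlc D X.X₁ n) : lcG D X n (lcF D X n x) = 0 :=
  g_f_apply (S := X.map (lcFunctor k D)) n x

include hX in
theorem lc_exact_mid (n : ℕ) (y : Hlc D X.X₂ n) (hy : lcG D X n y = 0) :
    ∃ x, lcF D X n x = y :=
  exact_mid hX n y hy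

theorem lc_delta_g_apply (n : ℕ) (y : Hlc D X.X₂ n) : lcDelta D hX n (lcG D X n y) = 0 :=
  delta_g_apply hX n y

theorem lc_exact_right (n : ℕ) (z : Hlc D X.X₃ n) (hz : lcDelta D hX n z = 0) :
    ∃ y, lcG D X n y = z :=
  exact_right hX n z hz

theorem lc_f_delta_apply (n : ℕ) (z : Hlc D X.X₃ n) :
    lcF D X (n + 1) (lcDelta D hX n z) = 0 :=
  f_delta_apply hX n z

theorem lc_exact_left (n : ℕ) (x : Hlc D X.X₁ (n + 1)) (hx : lcF D X (n + 1) x = 0) :
    ∃ z, lcDelta D hX n z = x :=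
  exact_left hX n x hx

/-- The cocycle formula for `lcDelta` on value functions: if `z` is a level-constant `n`-cocycle
of `X₃`, `y` a level-constant `n`-cochain of `X₂` with `g ∘ y = z`, and `x` a level-constant
`(n+1)`-cocycle of `X₁` with `f ∘ x = d y`, then `δ [z] = [x]`. -/
theorem lcDelta_cls (n : ℕ) (z : cyc (lcComplex D X.X₃) n) (y : (lcComplex D X.X₂).X n)
    (hy : ∀ g : Fin n → G, X.g.hom (lcValC y g) = lcVal z g)
    (x : cyc (lcComplex D X.X₁) (n + 1))
    (hx : ∀ g : Fin (n + 1) → G, X.f.hom (lcVal x g) =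
      (inhomogeneousCochains.d X.X₂ n).hom (lcValC y) g) :
    lcDelta D hX n ((cls (lcComplex D X.X₃) n).hom z) = (cls (lcComplex D X.X₁) (n + 1)).hom x := by
  refine delta_cls hX n z y ?_ x ?_
  · apply lcValC_injective
    funext g
    exact hy g
  · apply lcValC_injective
    funext g
    have h1 : lcValC (((lcComplex D X.X₂).d n (n + 1)).hom y) =
        (inhomogeneousCochains.d X.X₂ n).hom (lcValC y) := by
      simp only [lcComplex, CochainComplex.of_d]
      rfl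
    exact (hx g).trans (congrFun h1 g).symm

/-- The maps `f_*`, `g_*` on classes of cocycles. -/
theorem lcF_cls (n : ℕ) (z : cyc (lcComplex D X.X₁) n) :
    lcF D X n ((cls (lcComplex D X.X₁) n).hom z) =
      (cls (lcComplex D X.X₂) n).hom (cycMap (lcMapCoeff D X.f) n z) :=
  homologyMap_cls _ n z

theorem lcG_cls (n : ℕ) (z : cyc (lcComplex D X.X₂) n) :
    lcG D X n ((cls (lcComplex D X.X₂) n).hom z) =
      (cls (lcComplex D X.X₃) n).hom (cycMap (lcMapCoeff D X.g) n z) :=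
  homologyMap_cls _ n z

end Lc

end Fermat.Agent.S55.H99

end
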