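import Fermat.Agent.S55.H49.LcExact

/-!
# S55 / C9b leaf (LC-EXACT) (helper99): short exactness for pointwise-smooth coefficients

`H49.lc_shortExact` needs the middle term to be killed by ONE level (`D.Smooth`).  For the
coefficient modules of C9b (`E_S`, `Q_S^×`, …) only every single element is fixed by some level.
If the level subgroups have finite index, a level-constant cochain has finitely many values, so
a common level exists and the conclusion still holds:

* `lcShortExact_of_pointwise'` : `(X.map (lcFunctor k D)).ShortExact` for `X` short exact with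
  pointwise-smooth middle term;
* `lcExactStatement : LcExactStatement` : the statement of helper70's row #2255, verbatim;
* `finiteIndex_sub` : the finite-index hypothesis holds as soon as the levels are finite over `ℚ`.
-/

set_option autoImplicit false

open CategoryTheory groupCohomology
open Fermat.Agent.S55.H49

noncomputable section

namespace Fermat.Agent.S55.H99

variable {k : Type} [CommRing k] {G : Type} [Group G]

/-- Every element of `M` is fixed by the subgroup of some level with normal fixing subgroup. -/
def PointwiseSmooth (D : LevelDatum G) (M : Rep.{0} k G) : Prop :=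
  ∀ m : M, ∃ F : IntermediateField ℚ (AlgebraicClosure ℚ), D.Lev F ∧ (F.fixingSubgroup).Normal ∧
    ∀ s : G, D.r s ∈ F.fixingSubgroup → M.ρ s m = m

theorem PointwiseSmooth.of_smooth {D : LevelDatum G} {M : Rep.{0} k G} (h : D.Smooth M) :
    PointwiseSmooth D M := by
  obtain ⟨F, hF, hN, h0⟩ := h
  exact fun m => ⟨F, hF, hN, fun s hs => h0 s hs m⟩

/-- Finitely many elements of a pointwise-smooth module have a common level. -/
theorem exists_common_level {D : LevelDatum G} {M : Rep.{0} k G} (hM : PointwiseSmooth D M)
    (T : Set M) (hT : T.Finite) :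
    ∃ F : IntermediateField ℚ (AlgebraicClosure ℚ), D.Lev F ∧ (F.fixingSubgroup).Normal ∧
      ∀ m ∈ T, ∀ s : G, D.r s ∈ F.fixingSubgroup → M.ρ s m = m := by
  induction T, hT using Set.Finite.induction_on with
  | empty =>
    refine ⟨⊥, D.bot, ?_, fun m hm => absurd hm (Set.notMem_empty m)⟩
    rw [show (⊥ : IntermediateField ℚ (AlgebraicClosure ℚ)).fixingSubgroup = ⊤ from
      IntermediateField.fixingSubgroup_bot]
    infer_instance
  | @insert a T _ _ ih =>
    obtain ⟨F, hF, hN, h⟩ := ih
    obtain ⟨F', hF', hN', h'⟩ := hM a
    refine ⟨F ⊔ F', D.sup hF hF', normal_fixingSubgroup_sup hN hN', fun m hm s hs => ?_⟩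
    rcases hm with rfl | hm
    · exact h' s (IntermediateField.fixingSubgroup_antitone le_sup_right hs)
    · exact h m hm s (IntermediateField.fixingSubgroup_antitone le_sup_left hs)

/-- A cochain that is constant modulo a subgroup of finite index has finitely many values. -/
theorem finite_range_of_isLCAt {U : Subgroup G} [U.FiniteIndex] {M : Rep.{0} k G} {n : ℕ}
    {f : (Fin n → G) → M} (hf : IsLCAt U M f) : (Set.range f).Finite := by
  let f' : (Fin n → G ⧸ U) → M := fun q => f fun i => (q i).out
  have hsub : Set.range f ⊆ Set.range f' := by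
    rintro _ ⟨g, rfl⟩
    refine ⟨fun i => (g i : G ⧸ U), ?_⟩
    refine (hf.congr fun i => ?_).symm
    exact QuotientGroup.eq.mp (QuotientGroup.out_eq' _).symm
  exact (Set.finite_range f').subset hsub

/-- Surjectivity on level-constant cochains for a pointwise-smooth source. -/
theorem lcMapCoeff_f_surjective_of_pointwise (D : LevelDatum G)
    (hfin : ∀ F, D.Lev F → (D.sub F).FiniteIndex) {B C : Rep.{0} k G} (ψ : B ⟶ C)
    (hψ : Function.Surjective ψ.hom) (hB : PointwiseSmooth D B) (n : ℕ) :
    Function.Surjective ((lcMapCoeff D ψ).f n).hom := by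
  intro y
  obtain ⟨F, hF, hN, h1, h2⟩ := (show lcCochains D C n from y).2
  have := hfin F hF
  have hfinr : (Set.range fun g => Function.surjInv hψ (lcValC y g)).Finite := by
    have h := finite_range_of_isLCAt (⟨h1, h2⟩ : IsLCAt (D.sub F) C (lcValC y))
    refine (h.image (Function.surjInv hψ)).subset ?_
    rintro _ ⟨g, rfl⟩
    exact ⟨_, ⟨g, rfl⟩, rfl⟩
  obtain ⟨F₁, hF₁, hN₁, h0⟩ := exists_common_level hB _ hfinr
  have hlc : IsLC D B (fun g => Function.surjInv hψ (lcValC y g)) := by
    refine ⟨F ⊔ F₁, D.sup hF hF₁, normal_fixingSubgroup_sup hN hN₁, fun g s hs => ?_,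
      fun g s hs => ?_⟩
    · have : lcValC y (g * s) = lcValC y g :=
        h1 g s fun i => D.sub_antitone le_sup_left (hs i)
      show Function.surjInv hψ (lcValC y (g * s)) = Function.surjInv hψ (lcValC y g)
      rw [this]
    · exact h0 _ ⟨g, rfl⟩ s (D.sub_antitone le_sup_right hs)
  refine ⟨(⟨_, hlc⟩ : lcCochains D B n), ?_⟩
  apply lcValC_injective
  funext g
  exact Function.surjInv_eq hψ _

/-- **(LC-EXACT)** A short exact sequence of representations with pointwise-smooth middle term
gives a short exact sequence of complexes of level-constant cochains, if the level subgroups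
have finite index. -/
theorem lcShortExact_of_pointwise' (D : LevelDatum G)
    (hfin : ∀ F, D.Lev F → (D.sub F).FiniteIndex) (X : ShortComplex (Rep.{0} k G))
    (hX : X.ShortExact) (hs : PointwiseSmooth D X.X₂) :
    (X.map (lcFunctor k D)).ShortExact := by
  have hinj : Function.Injective X.f.hom := (Rep.mono_iff_injective X.f).1 hX.mono_f
  have hsurj : Function.Surjective X.g.hom := (Rep.epi_iff_surjective X.g).1 hX.epi_g
  have hrk : LinearMap.range X.f.hom.toLinearMap = LinearMap.ker X.g.hom.toLinearMap :=
    (hX.exact.map (forget₂ (Rep.{0} k G) (ModuleCat.{0} k))).moduleCat_range_eq_ker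
  have hex : ∀ b : X.X₂, X.g.hom b = 0 → ∃ a : X.X₁, X.f.hom a = b := by
    intro b hb
    have : b ∈ LinearMap.ker X.g.hom.toLinearMap := hb
    rw [← hrk] at this
    exact this
  refine HomologicalComplex.shortExact_of_degreewise_shortExact _ fun i => ?_
  refine
    { exact := ?_
      mono_f := ?_
      epi_g := ?_ }
  · rw [ShortComplex.moduleCat_exact_iff]
    intro y hy
    exact lcMapCoeff_f_exact D X.f X.g hinj hex i y hy
  · exact (ModuleCat.mono_iff_injective _).mpr (lcMapCoeff_f_injective D X.f hinj i)
  · exact (ModuleCat.epi_iff_surjective _).mpr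
      (lcMapCoeff_f_surjective_of_pointwise D hfin X.g hsurj hs i)

/-- The statement (LC-EXACT) of helper70's row #2255, verbatim. -/
def LcExactStatement : Prop :=
  ∀ (k : Type) [CommRing k] (G : Type) [Group G] (D : LevelDatum G),
    (∀ F, D.Lev F → (D.sub F).FiniteIndex) → D.HasNormalLevels →
    ∀ X : ShortComplex (Rep.{0} k G), X.ShortExact →
      (∀ m : X.X₂, ∃ F : IntermediateField ℚ (AlgebraicClosure ℚ), D.Lev F ∧
        (F.fixingSubgroup).Normal ∧ ∀ s, D.r s ∈ F.fixingSubgroup → X.X₂.ρ s m = m) →
      (X.map (lcFunctor k D)).ShortExact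

theorem lcExactStatement : LcExactStatement :=
  fun _ _ _ _ D hfin _ X hX hs => lcShortExact_of_pointwise' D hfin X hX hs

/-- The subgroup of a level that is finite over `ℚ` has finite index. -/
theorem finiteIndex_sub (D : LevelDatum G) (F : IntermediateField ℚ (AlgebraicClosure ℚ))
    [FiniteDimensional ℚ F] : (D.sub F).FiniteIndex := by
  have : Algebra.IsAlgebraic ℚ (AlgebraicClosure ℚ) := AlgebraicClosure.isAlgebraic ℚ
  have : IsAlgClosure ℚ (AlgebraicClosure ℚ) := ⟨inferInstance, inferInstance⟩
  have : IsGalois ℚ (AlgebraicClosure ℚ) := IsAlgClosure.isGalois ℚ (AlgebraicClosure ℚ)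
  have := Subgroup.quotient_finite_of_isOpen F.fixingSubgroup
    (IntermediateField.fixingSubgroup_isOpen F)
  have : F.fixingSubgroup.FiniteIndex := Subgroup.finiteIndex_of_finite_quotient
  refine ⟨?_⟩
  show (F.fixingSubgroup.comap D.r).index ≠ 0
  rw [Subgroup.index_comap]
  exact (Subgroup.instFiniteIndex_subgroupOf F.fixingSubgroup D.r.range).index_ne_zero

/-- The global datum has finite-index level subgroups. -/
theorem finiteIndex_sub_globalDatum (S : Finset Nat.Primes)
    (F : IntermediateField ℚ (AlgebraicClosure ℚ)) (hF : (globalDatum S).Lev F) :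
    ((globalDatum S).sub F).FiniteIndex := by
  have : FiniteDimensional ℚ F := hF.1
  exact finiteIndex_sub _ F

/-- The local data have finite-index level subgroups. -/
theorem finiteIndex_sub_localDatum {H : Type} [Group H] (f : H →* GQ)
    (F : IntermediateField ℚ (AlgebraicClosure ℚ)) (hF : (localDatum f).Lev F) :
    ((localDatum f).sub F).FiniteIndex := by
  have : FiniteDimensional ℚ F := hF
  exact finiteIndex_sub _ F

end Fermat.Agent.S55.H99

end
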