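import Fermat.Agent.S55.H49.C0Spec
import Fermat.Agent.S55.H43.Levels

/-!
# S55 / C0 leaves L3 and L4 (helper99): the degree-2 bridges

The Prelude's `continuousH2S S M` (resp. `continuousH2 f N`) — level-constant 2-cocycles
`c : G × G → M` modulo coboundaries of level-constant 1-cochains — is `H²` of helper49's complex
`lcComplex` of level-constant cochains, for a smooth module; the class of `c` corresponds to the
class of `g ↦ c (g 0, g 1)`.

* `bridge2_generic`: the statement for an arbitrary level datum with normal levels;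
* `bridgeGlobal2All : H49.BridgeGlobal2All`, `bridgeLocal2All : H49.BridgeLocal2All`.
-/

set_option autoImplicit false

open CategoryTheory groupCohomology ExtCitation
open Fermat.Agent.S55.H49

noncomputable section

namespace Fermat.Agent.S55.H99

variable {k : Type} [CommRing k] {G : Type} [Group G]

/-- Level constancy in the Prelude's sense (right invariance modulo the subgroup of some level),
one variable. -/
def PreLC₁ (D : LevelDatum G) {X : Type} (x : G → X) : Prop :=
  ∃ F : IntermediateField ℚ (AlgebraicClosure ℚ), D.Lev F ∧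
    ∀ g s : G, D.r s ∈ F.fixingSubgroup → x (g * s) = x g

/-- Level constancy in the Prelude's sense, two variables. -/
def PreLC₂ (D : LevelDatum G) {X : Type} (f : G × G → X) : Prop :=
  ∃ F : IntermediateField ℚ (AlgebraicClosure ℚ), D.Lev F ∧
    ∀ g g' s s' : G, D.r s ∈ F.fixingSubgroup → D.r s' ∈ F.fixingSubgroup →
      f (g * s, g' * s') = f (g, g')

/-! ### The differentials in low degree -/

theorem d_one_apply (M : Rep.{0} k G) (x : G → M) :
    (inhomogeneousCochains.d M 1).hom (fun g : Fin 1 → G => x (g 0)) =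
      fun g : Fin 2 → G => (d₁₂ M).hom x (g 0, g 1) := by
  have e := LinearMap.congr_fun (ModuleCat.hom_ext_iff.mp (eq_d₁₂_comp_inv M)) x
  rw [inhomogeneousCochains.d_def] at e
  exact e

theorem d_two_apply (M : Rep.{0} k G) (c : G × G → M) :
    (inhomogeneousCochains.d M 2).hom (fun g : Fin 2 → G => c (g 0, g 1)) =
      (cochainsIso₃ M).inv.hom ((d₂₃ M).hom c) := by
  have e := LinearMap.congr_fun (ModuleCat.hom_ext_iff.mp (eq_d₂₃_comp_inv M)) c
  rw [inhomogeneousCochains.d_def] at e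
  exact e

theorem cochainsIso₃_inv_injective (M : Rep.{0} k G) :
    Function.Injective (cochainsIso₃ M).inv.hom := by
  have h : Function.Bijective (cochainsIso₃ M).inv.hom :=
    (ConcreteCategory.bijective_of_isIso (cochainsIso₃ M).inv)
  exact h.1

theorem d_two_eq_zero_iff (M : Rep.{0} k G) (c : G × G → M) :
    (inhomogeneousCochains.d M 2).hom (fun g : Fin 2 → G => c (g 0, g 1)) = 0 ↔
      c ∈ cocycles₂ M := by
  rw [d_two_apply]
  constructor
  · intro h
    have h' : (cochainsIso₃ M).inv.hom ((d₂₃ M).hom c) = (cochainsIso₃ M).inv.hom 0 := by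
      rw [h, map_zero]
    exact cochainsIso₃_inv_injective M h'
  · intro h
    have h' : (d₂₃ M).hom c = 0 := h
    rw [h', map_zero]

/-- The differential of `lcComplex` on value functions. -/
theorem lcValC_d (D : LevelDatum G) (M : Rep.{0} k G) (n : ℕ) (y : (lcComplex D M).X n) :
    lcValC (((lcComplex D M).d n (n + 1)).hom y) = (inhomogeneousCochains.d M n).hom (lcValC y) := by
  simp only [lcComplex, CochainComplex.of_d]
  rfl

/-! ### Prelude level constancy versus `IsLC` -/

section Generic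

variable (D : LevelDatum G) (M : Rep.{0} k G)

theorem isLC_two_of_preLC (hN : D.HasNormalLevels) (hM : D.Smooth M) {f : G × G → M}
    (hf : PreLC₂ D f) : IsLC D M (fun g : Fin 2 → G => f (g 0, g 1)) := by
  obtain ⟨F, hF, h⟩ := hf
  obtain ⟨F₀, hF₀, hN₀, h₀⟩ := hM
  obtain ⟨F', hF', hle, hN'⟩ := hN F hF
  refine ⟨F' ⊔ F₀, D.sup hF' hF₀, normal_fixingSubgroup_sup hN' hN₀, fun g s hs => ?_,
    fun g s hs => ?_⟩
  · have h1 : ∀ i, D.r (s i) ∈ F.fixingSubgroup := fun i =>
      IntermediateField.fixingSubgroup_antitone (hle.trans le_sup_left) (hs i)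
    exact h (g 0) (g 1) (s 0) (s 1) (h1 0) (h1 1)
  · exact h₀ s (IntermediateField.fixingSubgroup_antitone le_sup_right hs) _

theorem isLC_one_of_preLC (hN : D.HasNormalLevels) (hM : D.Smooth M) {x : G → M}
    (hx : PreLC₁ D x) : IsLC D M (fun g : Fin 1 → G => x (g 0)) := by
  obtain ⟨F, hF, h⟩ := hx
  obtain ⟨F₀, hF₀, hN₀, h₀⟩ := hM
  obtain ⟨F', hF', hle, hN'⟩ := hN F hF
  refine ⟨F' ⊔ F₀, D.sup hF' hF₀, normal_fixingSubgroup_sup hN' hN₀, fun g s hs => ?_,
    fun g s hs => ?_⟩
  · exact h (g 0) (s 0)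
      (IntermediateField.fixingSubgroup_antitone (hle.trans le_sup_left) (hs 0))
  · exact h₀ s (IntermediateField.fixingSubgroup_antitone le_sup_right hs) _

variable {D M}

theorem preLC_two_of_isLC {f : (Fin 2 → G) → M} (hf : IsLC D M f) :
    PreLC₂ D (fun p : G × G => f ![p.1, p.2]) := by
  obtain ⟨F, hF, -, h1, -⟩ := hf
  refine ⟨F, hF, fun g g' s s' hs hs' => ?_⟩
  have e : (![g * s, g' * s'] : Fin 2 → G) = ![g, g'] * ![s, s'] := by
    funext i
    fin_cases i <;> rfl
  show f ![g * s, g' * s'] = f ![g, g']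
  rw [e]
  refine h1 _ _ fun i => ?_
  fin_cases i
  · exact hs
  · exact hs'

theorem preLC_one_of_isLC {y : (Fin 1 → G) → M} (hy : IsLC D M y) :
    PreLC₁ D (fun a : G => y fun _ => a) := by
  obtain ⟨F, hF, -, h1, -⟩ := hy
  refine ⟨F, hF, fun g s hs => ?_⟩
  exact h1 (fun _ => g) (fun _ => s) fun _ => hs

omit [Group G] in
theorem fin_two_eta (g : Fin 2 → G) : (![g 0, g 1] : Fin 2 → G) = g := by
  funext i
  fin_cases i <;> rfl

omit [Group G] in
theorem fin_one_eta (g : Fin 1 → G) : (fun _ : Fin 1 => g 0) = g := by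
  funext i
  fin_cases i
  rfl

variable (D M)

/-- The cocycle of `lcComplex` attached to a Prelude level-constant cocycle. -/
def toCyc (hN : D.HasNormalLevels) (hM : D.Smooth M) (Z : Submodule k (G × G → M))
    (hZ : ∀ f, f ∈ Z ↔ f ∈ cocycles₂ M ∧ PreLC₂ D f) : ↥Z →ₗ[k] cyc (lcComplex D M) 2 where
  toFun c :=
    ⟨(show (lcComplex D M).X 2 from
        (⟨fun g : Fin 2 → G => c.1 (g 0, g 1),
          isLC_two_of_preLC D M hN hM ((hZ c.1).1 c.2).2⟩ : lcCochains D M 2)), by
      rw [mem_cyc]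
      apply lcValC_injective
      rw [lcValC_d]
      exact (d_two_eq_zero_iff M c.1).2 ((hZ c.1).1 c.2).1⟩
  map_add' _ _ := rfl
  map_smul' _ _ := rfl

theorem lcVal_toCyc (hN : D.HasNormalLevels) (hM : D.Smooth M) (Z : Submodule k (G × G → M))
    (hZ : ∀ f, f ∈ Z ↔ f ∈ cocycles₂ M ∧ PreLC₂ D f) (c : Z) (g : Fin 2 → G) :
    lcVal (toCyc D M hN hM Z hZ c) g = c.1 (g 0, g 1) := rfl

theorem toCyc_surjective (hN : D.HasNormalLevels) (hM : D.Smooth M)
    (Z : Submodule k (G × G → M)) (hZ : ∀ f, f ∈ Z ↔ f ∈ cocycles₂ M ∧ PreLC₂ D f) :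
    Function.Surjective (toCyc D M hN hM Z hZ) := by
  intro z
  have hz : (inhomogeneousCochains.d M 2).hom (lcVal z) = 0 := by
    have h1 := lcValC_d D M 2 z.1
    rw [mem_cyc.mp z.2] at h1
    exact h1.symm
  have hz' : (fun g : Fin 2 → G => lcVal z ![g 0, g 1]) = lcVal z := by
    funext g
    rw [fin_two_eta]
  have hc : (fun p : G × G => lcVal z ![p.1, p.2]) ∈ Z := by
    refine (hZ _).2 ⟨?_, preLC_two_of_isLC (show IsLC D M (lcVal z) from (z.1 : lcCochains D M 2).2)⟩
    rw [← d_two_eq_zero_iff]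
    show (inhomogeneousCochains.d M 2).hom (fun g : Fin 2 → G => lcVal z ![g 0, g 1]) = 0
    rw [hz', hz]
  refine ⟨⟨_, hc⟩, lcVal_injective ?_⟩
  funext g
  rw [lcVal_toCyc]
  show lcVal z ![g 0, g 1] = lcVal z g
  rw [fin_two_eta]

theorem cls_toCyc_eq_zero_iff (hN : D.HasNormalLevels) (hM : D.Smooth M)
    (Z B : Submodule k (G × G → M)) (hZ : ∀ f, f ∈ Z ↔ f ∈ cocycles₂ M ∧ PreLC₂ D f)
    (hB : ∀ f, f ∈ B ↔ ∃ x : G → M, PreLC₁ D x ∧ (d₁₂ M).hom x = f) (c : Z) :
    (cls (lcComplex D M) 2).hom (toCyc D M hN hM Z hZ c) = 0 ↔ c.1 ∈ B := by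
  rw [cls_eq_zero_iff (lcComplex D M) 1 (toCyc D M hN hM Z hZ c), hB]
  constructor
  · rintro ⟨y, hy⟩
    refine ⟨fun a => lcValC y fun _ => a,
      preLC_one_of_isLC (show IsLC D M (lcValC y) from (y : lcCochains D M 1).2), ?_⟩
    have h1 : lcValC (((lcComplex D M).d 1 (1 + 1)).hom y) =
        fun g : Fin 2 → G => c.1 (g 0, g 1) := congrArg lcValC hy
    rw [lcValC_d] at h1
    have h2 : lcValC y = fun g : Fin 1 → G => lcValC y fun _ => g 0 := by
      funext g
      rw [fin_one_eta]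
    have h4 : (inhomogeneousCochains.d M 1).hom (lcValC y) =
        fun g : Fin 2 → G => (d₁₂ M).hom (fun a => lcValC y fun _ => a) (g 0, g 1) :=
      (congrArg (fun t => (inhomogeneousCochains.d M 1).hom t) h2).trans
        (d_one_apply M (fun a => lcValC y fun _ => a))
    rw [h1] at h4
    funext p
    exact (congrFun h4 ![p.1, p.2]).symm
  · rintro ⟨x, hx, hxc⟩
    refine ⟨(show (lcComplex D M).X 1 from
      (⟨fun g : Fin 1 → G => x (g 0), isLC_one_of_preLC D M hN hM hx⟩ : lcCochains D M 1)), ?_⟩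
    apply lcValC_injective
    rw [lcValC_d]
    show (inhomogeneousCochains.d M 1).hom (fun g : Fin 1 → G => x (g 0)) =
      fun g : Fin 2 → G => c.1 (g 0, g 1)
    rw [d_one_apply, hxc]

/-- **The degree-2 bridge, generic form.** -/
theorem bridge2_generic (hN : D.HasNormalLevels) (hM : D.Smooth M)
    (Z B : Submodule k (G × G → M)) (hZ : ∀ f, f ∈ Z ↔ f ∈ cocycles₂ M ∧ PreLC₂ D f)
    (hB : ∀ f, f ∈ B ↔ ∃ x : G → M, PreLC₁ D x ∧ (d₁₂ M).hom x = f) :
    ∃ e : (↥Z ⧸ B.comap Z.subtype) ≃ₗ[k] Hlc D M 2,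
      (∀ c : Z, ∃ z : cyc (lcComplex D M) 2, ∀ g : Fin 2 → G, lcVal z g = c.1 (g 0, g 1)) ∧
      ∀ (c : Z) (z : cyc (lcComplex D M) 2), (∀ g : Fin 2 → G, lcVal z g = c.1 (g 0, g 1)) →
        e (Submodule.mkQ _ c) = (cls (lcComplex D M) 2).hom z := by
  let Φ : ↥Z →ₗ[k] Hlc D M 2 := (cls (lcComplex D M) 2).hom ∘ₗ toCyc D M hN hM Z hZ
  have hsurj : Function.Surjective Φ :=
    (cls_surjective (lcComplex D M) 2).comp (toCyc_surjective D M hN hM Z hZ)
  have hker : LinearMap.ker Φ = B.comap Z.subtype := by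
    ext c
    rw [LinearMap.mem_ker, Submodule.mem_comap]
    exact cls_toCyc_eq_zero_iff D M hN hM Z B hZ hB c
  refine ⟨(Submodule.quotEquivOfEq _ _ hker.symm).trans (Φ.quotKerEquivOfSurjective hsurj),
    fun c => ⟨toCyc D M hN hM Z hZ c, fun g => rfl⟩, fun c z hz => ?_⟩
  have hzc : z = toCyc D M hN hM Z hZ c := lcVal_injective (funext fun g => (hz g).trans rfl)
  rw [hzc]
  rfl

end Generic

/-! ### The two leaves -/

theorem hasNormalLevels_globalDatum (S : Finset Nat.Primes) :
    (globalDatum S).HasNormalLevels := fun F hF => by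
  obtain ⟨F', h1, h2, h3, -⟩ := Fermat.Agent.S55.H43.exists_normal_level hF
  exact ⟨F', h1, h2, h3⟩

theorem hasNormalLevels_localDatum {H : Type} [Group H] (f : H →* GQ) :
    (localDatum f).HasNormalLevels := fun F hF => by
  have : FiniteDimensional ℚ F := hF
  obtain ⟨F', h1, h2, h3, -⟩ := Fermat.Agent.S55.H43.exists_normal_finiteDimensional F
  exact ⟨F', h1, h2, h3⟩

/-- **C0 leaf L3**: the global degree-2 bridge. -/
theorem bridgeGlobal2All : BridgeGlobal2All := fun _ _ S M hM =>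
  bridge2_generic (globalDatum S) M (hasNormalLevels_globalDatum S) hM
    (levelCocyclesS₂ S M) (levelCoboundariesS₂ S M)
    (fun f => mem_levelCocyclesS₂_iff S M f) (fun f => mem_levelCoboundariesS₂_iff S M f)

/-- **C0 leaf L4**: the local degree-2 bridge. -/
theorem bridgeLocal2All : BridgeLocal2All := fun _ _ _ _ f N hN =>
  bridge2_generic (localDatum f) N (hasNormalLevels_localDatum f) hN
    (levelCocycles₂ f N) (levelCoboundaries₂ f N)
    (fun c => mem_levelCocycles₂_iff f N c) (fun c => mem_levelCoboundaries₂_iff f N c)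

end Fermat.Agent.S55.H99

end
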