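/-
S55 / Program C, package C10 (helper12), leaf CD-d of Route R (helper99):
for a subgroup `H ≤ G_ℚ` of finite index prime to `p`, every `G_ℚ`-representation `K` over `𝔽_p`
is a retract of `Coind_H Res_H K`.

`i m = (g ↦ g • m)` and `r f = [G : H]⁻¹ • ∑_{c ∈ G/H} c • f (c⁻¹)` (the summand only depends on the
coset `c = gH`), so `r (i m) = m`.
-/
import Fermat.Agent.S55.H12.CDDefs

set_option autoImplicit false

open CategoryTheory Module

noncomputable section

namespace Fermat.Agent.S55.H99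

open Fermat.Agent.S55.H70 Fermat.Agent.S55.H12

variable (p : ℕ) [Fact p.Prime]

/-- The unit `K → Coind_H Res_H K`, `m ↦ (g ↦ g • m)`, as a linear map. -/
def retractILin (H : Subgroup GQ) (K : Rep.{0, 0, 0} (ZMod p) GQ) :
    K →ₗ[ZMod p] Rep.coind H.subtype (Rep.res H.subtype K) where
  toFun m := ⟨fun g => K.ρ g m, fun h g => by
    show K.ρ (H.subtype h * g) m = K.ρ (H.subtype h) (K.ρ g m)
    rw [map_mul]; rfl⟩
  map_add' m m' := by
    apply Subtype.ext; funext g; exact map_add _ _ _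
  map_smul' r m := by
    apply Subtype.ext; funext g; exact map_smul _ _ _

theorem retractILin_apply (H : Subgroup GQ) (K : Rep.{0, 0, 0} (ZMod p) GQ) (m : K) (g : GQ) :
    (retractILin p H K m).1 g = K.ρ g m := rfl

/-- The unit `K ⟶ Coind_H Res_H K`. -/
def retractI (H : Subgroup GQ) (K : Rep.{0, 0, 0} (ZMod p) GQ) :
    K ⟶ Rep.coind H.subtype (Rep.res H.subtype K) :=
  Rep.ofHom
    { toLinearMap := retractILin p H K
      isIntertwining' := fun s => by
        ext m g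
        show K.ρ g (K.ρ s m) = K.ρ (g * s) m
        rw [map_mul]; rfl }

/-- The summand `g • f (g⁻¹)` only depends on the coset `g H`. -/
theorem coind_avg_wd (H : Subgroup GQ) (K : Rep.{0, 0, 0} (ZMod p) GQ)
    (f : Rep.coind H.subtype (Rep.res H.subtype K)) (g : GQ) :
    K.ρ (g : GQ ⧸ H).out (f.1 ((g : GQ ⧸ H).out)⁻¹) = K.ρ g (f.1 g⁻¹) := by
  obtain ⟨h, hh⟩ := QuotientGroup.mk_out_eq_mul H g
  rw [hh, mul_inv_rev]
  have h1 : f.1 ((h : GQ)⁻¹ * g⁻¹) = K.ρ (h : GQ)⁻¹ (f.1 g⁻¹) := f.2 h⁻¹ g⁻¹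
  rw [h1, map_mul]
  show K.ρ g (K.ρ h (K.ρ (h : GQ)⁻¹ (f.1 g⁻¹))) = _
  have h2 : K.ρ (h : GQ) (K.ρ (h : GQ)⁻¹ (f.1 g⁻¹)) = f.1 g⁻¹ := by
    rw [← Module.End.mul_apply, ← map_mul, mul_inv_cancel, map_one]; rfl
  rw [h2]

/-- The averaging map `f ↦ [G : H]⁻¹ • ∑_c c • f (c⁻¹)`, as a linear map. -/
def retractRLin (H : Subgroup GQ) [Fintype (GQ ⧸ H)] (K : Rep.{0, 0, 0} (ZMod p) GQ) :
    Rep.coind H.subtype (Rep.res H.subtype K) →ₗ[ZMod p] K where
  toFun f := ((H.index : ZMod p)⁻¹) • ∑ c : GQ ⧸ H, K.ρ c.out (f.1 c.out⁻¹)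
  map_add' f f' := by
    have h : ∀ c : GQ ⧸ H, K.ρ c.out ((f + f').1 c.out⁻¹) =
        K.ρ c.out (f.1 c.out⁻¹) + K.ρ c.out (f'.1 c.out⁻¹) := fun c => map_add (K.ρ c.out) _ _
    rw [Finset.sum_congr rfl fun c _ => h c, Finset.sum_add_distrib, smul_add]
  map_smul' r f := by
    have h : ∀ c : GQ ⧸ H, K.ρ c.out ((r • f).1 c.out⁻¹) = r • K.ρ c.out (f.1 c.out⁻¹) :=
      fun c => map_smul (K.ρ c.out) r _
    rw [Finset.sum_congr rfl fun c _ => h c, ← Finset.smul_sum, smul_comm]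
    rfl

theorem retractRLin_apply (H : Subgroup GQ) [Fintype (GQ ⧸ H)] (K : Rep.{0, 0, 0} (ZMod p) GQ)
    (f : Rep.coind H.subtype (Rep.res H.subtype K)) :
    retractRLin p H K f = ((H.index : ZMod p)⁻¹) • ∑ c : GQ ⧸ H, K.ρ c.out (f.1 c.out⁻¹) := rfl

theorem retractRLin_equivariant (H : Subgroup GQ) [Fintype (GQ ⧸ H)]
    (K : Rep.{0, 0, 0} (ZMod p) GQ) (s : GQ) (f : Rep.coind H.subtype (Rep.res H.subtype K)) :
    retractRLin p H K ((Rep.coind H.subtype (Rep.res H.subtype K)).ρ s f) =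
      K.ρ s (retractRLin p H K f) := by
  rw [retractRLin_apply, retractRLin_apply, map_smul, map_sum]
  congr 1
  rw [← Equiv.sum_comp (MulAction.toPerm s : GQ ⧸ H ≃ GQ ⧸ H)]
  refine Finset.sum_congr rfl fun c _ => ?_
  have hc : (MulAction.toPerm s : GQ ⧸ H ≃ GQ ⧸ H) c = ((s * c.out : GQ) : GQ ⧸ H) := by
    show s • c = _
    conv_lhs => rw [← QuotientGroup.out_eq' c]
    rfl
  rw [hc, coind_avg_wd p H K _ (s * c.out)]
  show K.ρ (s * c.out) (f.1 ((s * c.out)⁻¹ * s)) = K.ρ s (K.ρ c.out (f.1 c.out⁻¹))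
  rw [mul_inv_rev, inv_mul_cancel_right, map_mul]; rfl

/-- The averaging map `Coind_H Res_H K ⟶ K`. -/
def retractR (H : Subgroup GQ) [Fintype (GQ ⧸ H)] (K : Rep.{0, 0, 0} (ZMod p) GQ) :
    Rep.coind H.subtype (Rep.res H.subtype K) ⟶ K :=
  Rep.ofHom
    { toLinearMap := retractRLin p H K
      isIntertwining' := fun s => by
        ext f
        exact retractRLin_equivariant p H K s f }

/-- (CD-d) `K` is a retract of `Coind_H Res_H K` when `[G_ℚ : H]` is finite and prime to `p`. -/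
theorem coindRetract : CoindRetractStatement p := by
  intro H hidx hp K
  haveI : H.FiniteIndex := ⟨hidx⟩
  letI : Fintype (GQ ⧸ H) := Subgroup.fintypeQuotientOfFiniteIndex
  refine ⟨retractI p H K, retractR p H K, ?_⟩
  apply Rep.hom_ext
  ext m
  show retractRLin p H K (retractILin p H K m) = m
  rw [retractRLin_apply]
  have hsum : ∀ c : GQ ⧸ H, K.ρ c.out ((retractILin p H K m).1 c.out⁻¹) = m := by
    intro c
    rw [retractILin_apply, ← Module.End.mul_apply, ← map_mul, mul_inv_cancel, map_one]; rfl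
  rw [Finset.sum_congr rfl fun c _ => hsum c, Finset.sum_const, Finset.card_univ,
    ← Nat.card_eq_fintype_card, ← Subgroup.index_eq_card, ← Nat.cast_smul_eq_nsmul (ZMod p),
    smul_smul, inv_mul_cancel₀, one_smul]
  intro h0
  exact hp ((ZMod.natCast_eq_zero_iff _ _).mp h0)

end Fermat.Agent.S55.H99
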