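/-
S55 / Program C, package C9b, sub-package (SH) of helper70's architecture (helper99):
Shapiro's lemma for level-constant cohomology.  DEFINITIONS and STATEMENTS.

`D` a level datum on `G`, `H ≤ G` a subgroup, `D'` a level datum on `H` which is the restriction
of `D` (same structure map, same levels), `B` a representation of `H`.  The Shapiro map

  `sh n : Hlc D (Coind_H^G B) n → Hlc D' B n`,   `[σ] ↦ [(h₁, …, hₙ) ↦ σ(h₁, …, hₙ)(1)]`

is `lcMap` of the inclusion `H → G` and of the evaluation at `1`.  If `H` contains a normal level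
subgroup of `D`, then `sh 2` is bijective and `sh 3` is injective (proved in `H99/Shapiro.lean` by
the explicit retraction `G → H` and the prism homotopy on homogeneous cochains).
-/
import Fermat.Agent.S55.H49.LevelDefs

set_option autoImplicit false

open CategoryTheory groupCohomology

noncomputable section

namespace Fermat.Agent.S55.H99

open Fermat.Agent.S55.H49

variable {G : Type} [Group G] {k : Type} [CommRing k]

/-- `D'` (a level datum on the subgroup `H`) is the restriction of `D`: same structure map to
`Gal(ℚ̄/ℚ)` and same levels. -/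
structure IsRestrict (D : LevelDatum G) (H : Subgroup G) (D' : LevelDatum H) : Prop where
  r_eq : ∀ h : H, D'.r h = D.r (h : G)
  lev_iff : ∀ F : IntermediateField ℚ (AlgebraicClosure ℚ), D'.Lev F ↔ D.Lev F

/-- The restriction of a level datum to a subgroup. -/
def restrictDatum (D : LevelDatum G) (H : Subgroup G) : LevelDatum H where
  r := D.r.comp H.subtype
  Lev := D.Lev
  bot := D.bot
  sup := D.sup

theorem isRestrict_restrictDatum (D : LevelDatum G) (H : Subgroup G) :
    IsRestrict D H (restrictDatum D H) :=
  ⟨fun _ => rfl, fun _ => Iff.rfl⟩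

/-- `H` contains a normal level subgroup of `D`. -/
def ContainsLevel (D : LevelDatum G) (H : Subgroup G) : Prop :=
  ∃ F : IntermediateField ℚ (AlgebraicClosure ℚ), D.Lev F ∧ (F.fixingSubgroup).Normal ∧
    D.sub F ≤ H

variable {D : LevelDatum G} {H : Subgroup G} {D' : LevelDatum H}

/-- The inclusion `H → G` as a morphism of level data. -/
def shHom (h : IsRestrict D H D') : D'.Hom D where
  φ := H.subtype
  comm g := (h.r_eq g).symm
  lev hF := (h.lev_iff _).2 hF

/-- Evaluation at `1`: `Res_H Coind_H^G B ⟶ B`. -/
def shEv (H : Subgroup G) (B : Rep.{0} k H) :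
    Rep.res H.subtype (Rep.coind H.subtype B) ⟶ B :=
  Rep.ofHom
    { toLinearMap :=
        { toFun := fun f => f.1 1
          map_add' := fun _ _ => rfl
          map_smul' := fun _ _ => rfl }
      isIntertwining' := fun s => by
        ext f
        show f.1 (1 * (s : G)) = B.ρ s (f.1 1)
        rw [one_mul, ← f.2 s 1, mul_one]
        rfl }

theorem shEv_apply (H : Subgroup G) (B : Rep.{0} k H) (f : Rep.coind H.subtype B) :
    (shEv H B).hom f = f.1 1 := rfl

/-- The Shapiro map on level-constant cochains. -/
def shCo (h : IsRestrict D H D') (B : Rep.{0} k H) :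
    lcComplex D (Rep.coind H.subtype B) ⟶ lcComplex D' B :=
  lcMap (shHom h) (shEv H B)

/-- The Shapiro map `Hlc D (Coind_H^G B) n → Hlc D' B n`. -/
def sh (h : IsRestrict D H D') (B : Rep.{0} k H) (n : ℕ) :
    Hlc D (Rep.coind H.subtype B) n →ₗ[k] Hlc D' B n :=
  (HomologicalComplex.homologyMap (shCo h B) n).hom

/-- The Shapiro map on cochains: `(sh σ)(h₁, …, hₙ) = σ(h₁, …, hₙ)(1)`. -/
theorem shCo_apply (h : IsRestrict D H D') (B : Rep.{0} k H) (n : ℕ)
    (σ : lcCochains D (Rep.coind H.subtype B) n) (g : Fin n → H) :
    (((shCo h B).f n).hom σ : lcCochains D' B n).1 g = (σ.1 (fun i => (g i : G))).1 1 := rfl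

/-- (SH-inj), degree `n`. -/
def ShInjStatement (n : ℕ) : Prop :=
  ∀ (G : Type) [Group G] (k : Type) [CommRing k] (D : LevelDatum G) (H : Subgroup G)
    (D' : LevelDatum H) (h : IsRestrict D H D'), ContainsLevel D H →
    ∀ B : Rep.{0} k H, Function.Injective (sh h B n)

/-- (SH-surj), degree `n`. -/
def ShSurjStatement (n : ℕ) : Prop :=
  ∀ (G : Type) [Group G] (k : Type) [CommRing k] (D : LevelDatum G) (H : Subgroup G)
    (D' : LevelDatum H) (h : IsRestrict D H D'), ContainsLevel D H →
    ∀ B : Rep.{0} k H, Function.Surjective (sh h B n)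

end Fermat.Agent.S55.H99
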