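/-
S55 / Program C, package C9b, sub-package (SH) (helper99): Shapiro's lemma for level-constant
cohomology — the cochain-level core (no level data, no homology).

For a subgroup `H ≤ G` and a representation `B` of `H`, with `C = Coind_H^G B`:
* explicit formulas for the inhomogeneous differential in degrees `1, 2, 3`;
* a left-`H`-equivariant retraction `r : G → H` (`Retraction`);
* the homogeneous forms `hom₁, hom₂, hom₃` of `C`-valued cochains of `G` and `homH₁, homH₂` of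
  `B`-valued cochains of `H`, and the differentials in these terms;
* the prism identities;
* the three constructions: a cocycle of `H` lifts to a cocycle of `G` (`sh_surj2_core`); a
  cocycle of `G` whose restriction is a coboundary is a coboundary (`sh_inj2_core`,
  `sh_inj3_core`), all preserving invariance modulo a normal subgroup `U ≤ H` of `G`.
-/
import Fermat.Agent.S55.H99.ShapiroDefs

set_option autoImplicit false

open CategoryTheory groupCohomology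

noncomputable section

namespace Fermat.Agent.S55.H99

open Fermat.Agent.S55.H49

variable {G : Type} [Group G] {k : Type} [CommRing k]

/-! ### Vectors and the differential in low degrees -/

theorem vec1_eta {α : Type} (g : Fin 1 → α) : g = ![g 0] := by
  funext i; fin_cases i; rfl

theorem vec2_eta {α : Type} (g : Fin 2 → α) : g = ![g 0, g 1] := by
  funext i; fin_cases i <;> rfl

theorem vec3_eta {α : Type} (g : Fin 3 → α) : g = ![g 0, g 1, g 2] := by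
  funext i; fin_cases i <;> rfl

theorem d1_apply (M : Rep.{0} k G) (f : (Fin 1 → G) → M) (a b : G) :
    (inhomogeneousCochains.d M 1).hom f ![a, b] = M.ρ a (f ![b]) - f ![a * b] + f ![a] := by
  rw [inhomogeneousCochains.d_hom_apply, Fin.sum_univ_two]
  have e0 : (fun i : Fin 1 => ![a, b] i.succ) = ![b] := by
    funext i; fin_cases i; rfl
  have e1 : Fin.contractNth (0 : Fin 2) (· * ·) ![a, b] = ![a * b] := by
    funext i; fin_cases i; rfl
  have e2 : Fin.contractNth (1 : Fin 2) (· * ·) ![a, b] = ![a] := by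
    funext i; fin_cases i; rfl
  rw [e1, e2]
  simp only [Matrix.cons_val_zero, e0]
  simp [pow_succ]
  abel

theorem d2_apply (M : Rep.{0} k G) (f : (Fin 2 → G) → M) (a b c : G) :
    (inhomogeneousCochains.d M 2).hom f ![a, b, c] =
      M.ρ a (f ![b, c]) - f ![a * b, c] + f ![a, b * c] - f ![a, b] := by
  rw [inhomogeneousCochains.d_hom_apply, Fin.sum_univ_three]
  have e0 : (fun i : Fin 2 => ![a, b, c] i.succ) = ![b, c] := by
    funext i; fin_cases i <;> rfl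
  have e1 : Fin.contractNth (0 : Fin 3) (· * ·) ![a, b, c] = ![a * b, c] := by
    funext i; fin_cases i <;> rfl
  have e2 : Fin.contractNth (1 : Fin 3) (· * ·) ![a, b, c] = ![a, b * c] := by
    funext i; fin_cases i <;> rfl
  have e3 : Fin.contractNth (2 : Fin 3) (· * ·) ![a, b, c] = ![a, b] := by
    funext i; fin_cases i <;> rfl
  rw [e1, e2, e3]
  simp only [Matrix.cons_val_zero, e0]
  simp [pow_succ]
  abel

theorem d3_apply (M : Rep.{0} k G) (f : (Fin 3 → G) → M) (a b c e : G) :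
    (inhomogeneousCochains.d M 3).hom f ![a, b, c, e] =
      M.ρ a (f ![b, c, e]) - f ![a * b, c, e] + f ![a, b * c, e] - f ![a, b, c * e]
        + f ![a, b, c] := by
  rw [inhomogeneousCochains.d_hom_apply, Fin.sum_univ_four]
  have e0 : (fun i : Fin 3 => ![a, b, c, e] i.succ) = ![b, c, e] := by
    funext i; fin_cases i <;> rfl
  have e1 : Fin.contractNth (0 : Fin 4) (· * ·) ![a, b, c, e] = ![a * b, c, e] := by
    funext i; fin_cases i <;> rfl
  have e2 : Fin.contractNth (1 : Fin 4) (· * ·) ![a, b, c, e] = ![a, b * c, e] := by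
    funext i; fin_cases i <;> rfl
  have e3 : Fin.contractNth (2 : Fin 4) (· * ·) ![a, b, c, e] = ![a, b, c * e] := by
    funext i; fin_cases i <;> rfl
  have e4 : Fin.contractNth (3 : Fin 4) (· * ·) ![a, b, c, e] = ![a, b, c] := by
    funext i; fin_cases i <;> rfl
  rw [e1, e2, e3, e4]
  simp only [Matrix.cons_val_zero, e0]
  simp [pow_succ]
  abel

/-! ### The retraction -/

/-- A left-`H`-equivariant retraction `G → H`. -/
structure Retraction (H : Subgroup G) where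
  /-- the retraction -/
  r : G → H
  equiv : ∀ (h : H) (g : G), r ((h : G) * g) = h * r g
  one : r 1 = 1

theorem exists_retraction (H : Subgroup G) : Nonempty (Retraction H) := by
  have hmem : ∀ g : G, g * ((g⁻¹ : G) : G ⧸ H).out ∈ H := by
    intro g
    obtain ⟨h, hh⟩ := QuotientGroup.mk_out_eq_mul H g⁻¹
    rw [hh, mul_inv_cancel_left]
    exact h.2
  let r0 : G → H := fun g => ⟨g * ((g⁻¹ : G) : G ⧸ H).out, hmem g⟩
  have h0 : ∀ (h : H) (g : G), r0 ((h : G) * g) = h * r0 g := by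
    intro h g
    apply Subtype.ext
    have e : ((((h : G) * g)⁻¹ : G) : G ⧸ H) = ((g⁻¹ : G) : G ⧸ H) := by
      rw [QuotientGroup.eq]
      simp
    show (h : G) * g * ((((h : G) * g)⁻¹ : G) : G ⧸ H).out =
      (h : G) * (g * ((g⁻¹ : G) : G ⧸ H).out)
    rw [e, mul_assoc]
  exact ⟨⟨fun g => r0 g * (r0 1)⁻¹, fun h g => by rw [h0, mul_assoc], mul_inv_cancel _⟩⟩

namespace Retraction

variable {H : Subgroup G} (R : Retraction H)

theorem apply_coe (h : H) : R.r (h : G) = h := by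
  have e := R.equiv h 1
  rwa [mul_one, R.one, mul_one] at e

/-- The retraction is compatible with right multiplication by a normal subgroup `U ≤ H`. -/
theorem apply_mul_mem {U : Subgroup G} (hU : U.Normal) (hUH : U ≤ H) (g u : G) (hu : u ∈ U) :
    ((R.r g : G))⁻¹ * (R.r (g * u) : G) ∈ U := by
  have hc : g * u * g⁻¹ ∈ U := hU.conj_mem u hu g
  have e : g * u = ((⟨g * u * g⁻¹, hUH hc⟩ : H) : G) * g := by simp
  rw [e, R.equiv]
  show ((R.r g : G))⁻¹ * ((g * u * g⁻¹) * (R.r g : G)) ∈ U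
  rw [← mul_assoc]
  exact hU.conj_mem' _ hc _

theorem coe_apply_mul (g u : G) :
    (R.r (g * u) : G) = (R.r g : G) * ((R.r g : G)⁻¹ * (R.r (g * u) : G)) :=
  (mul_inv_cancel_left _ _).symm

theorem apply_mul (g u : G) : R.r (g * u) = R.r g * ((R.r g)⁻¹ * R.r (g * u)) :=
  (mul_inv_cancel_left _ _).symm

theorem apply_mul_mem_subgroupOf {U : Subgroup G} (hU : U.Normal) (hUH : U ≤ H) (g u : G)
    (hu : u ∈ U) : (R.r g)⁻¹ * R.r (g * u) ∈ U.subgroupOf H :=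
  Subgroup.mem_subgroupOf.2 (R.apply_mul_mem hU hUH g u hu)

end Retraction

/-! ### Invariance modulo a subgroup, for functions of several variables -/

section RInv

variable {Γ : Type} [Group Γ] {M : Type}

/-- Right invariance modulo `U` in both variables. -/
def RInv2 (U : Subgroup Γ) (Φ : Γ → Γ → M) : Prop :=
  ∀ a b u v, u ∈ U → v ∈ U → Φ (a * u) (b * v) = Φ a b

/-- Right invariance modulo `U` in three variables. -/
def RInv3 (U : Subgroup Γ) (Φ : Γ → Γ → Γ → M) : Prop :=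
  ∀ a b c u v w, u ∈ U → v ∈ U → w ∈ U → Φ (a * u) (b * v) (c * w) = Φ a b c

/-- Right invariance modulo `U` in four variables. -/
def RInv4 (U : Subgroup Γ) (Φ : Γ → Γ → Γ → Γ → M) : Prop :=
  ∀ a b c e u v w z, u ∈ U → v ∈ U → w ∈ U → z ∈ U →
    Φ (a * u) (b * v) (c * w) (e * z) = Φ a b c e

theorem slot_mem {U : Subgroup Γ} (hU : U.Normal) (p q u v : Γ) (hu : u ∈ U) (hv : v ∈ U) :
    (p⁻¹ * q)⁻¹ * ((p * u)⁻¹ * (q * v)) ∈ U := by
  have e : (p⁻¹ * q)⁻¹ * ((p * u)⁻¹ * (q * v)) = (q⁻¹ * p) * u⁻¹ * (q⁻¹ * p)⁻¹ * v := by group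
  rw [e]
  exact U.mul_mem (hU.conj_mem _ (U.inv_mem hu) _) hv

end RInv

/-! ### Prism identities -/

theorem prism2 {X M : Type} [AddCommGroup M] (Φ : X → X → X → M) (r : X → X)
    (hΦ : ∀ a b c e, Φ b c e - Φ a c e + Φ a b e - Φ a b c = 0) (a b c : X) :
    Φ a b c - Φ (r a) (r b) (r c) =
      (Φ (r b) b c - Φ (r b) (r c) c) - (Φ (r a) a c - Φ (r a) (r c) c)
        + (Φ (r a) a b - Φ (r a) (r b) b) := by
  have h0 := hΦ (r a) a b c
  have h1 := hΦ (r a) (r b) b c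
  have h2 := hΦ (r a) (r b) (r c) c
  linear_combination (norm := abel) h0 - h1 + h2

theorem prism3 {X M : Type} [AddCommGroup M] (Φ : X → X → X → X → M) (r : X → X)
    (hΦ : ∀ a b c e f, Φ b c e f - Φ a c e f + Φ a b e f - Φ a b c f + Φ a b c e = 0)
    (a b c e : X) :
    Φ a b c e - Φ (r a) (r b) (r c) (r e) =
      (Φ (r b) b c e - Φ (r b) (r c) c e + Φ (r b) (r c) (r e) e)
        - (Φ (r a) a c e - Φ (r a) (r c) c e + Φ (r a) (r c) (r e) e)
        + (Φ (r a) a b e - Φ (r a) (r b) b e + Φ (r a) (r b) (r e) e)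
        - (Φ (r a) a b c - Φ (r a) (r b) b c + Φ (r a) (r b) (r c) c) := by
  have h0 := hΦ (r a) a b c e
  have h1 := hΦ (r a) (r b) b c e
  have h2 := hΦ (r a) (r b) (r c) c e
  have h3 := hΦ (r a) (r b) (r c) (r e) e
  linear_combination (norm := abel) h0 - h1 + h2 - h3

/-! ### Homogeneous forms of cochains with values in the coinduced module -/

section GSide

variable {H : Subgroup G} {B : Rep.{0} k H}

theorem coind_ρ_apply (s : G) (f : Rep.coind H.subtype B) (x : G) :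
    ((Rep.coind H.subtype B).ρ s f).1 x = f.1 (x * s) := rfl

theorem coind_equivariant (f : Rep.coind H.subtype B) (h : H) (x : G) :
    f.1 ((h : G) * x) = B.ρ h (f.1 x) := f.2 h x

/-- Homogeneous form of a `1`-cochain: `φ(a, b) = σ(a⁻¹b)(a)`. -/
def hom1 (σ : (Fin 1 → G) → Rep.coind H.subtype B) (a b : G) : B := (σ ![a⁻¹ * b]).1 a

/-- Homogeneous form of a `2`-cochain. -/
def hom2 (σ : (Fin 2 → G) → Rep.coind H.subtype B) (a b c : G) : B :=
  (σ ![a⁻¹ * b, b⁻¹ * c]).1 a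

/-- Homogeneous form of a `3`-cochain. -/
def hom3 (σ : (Fin 3 → G) → Rep.coind H.subtype B) (a b c e : G) : B :=
  (σ ![a⁻¹ * b, b⁻¹ * c, c⁻¹ * e]).1 a

theorem hom1_eval (σ : (Fin 1 → G) → Rep.coind H.subtype B) (x g1 : G) :
    (σ ![g1]).1 x = hom1 σ x (x * g1) := by
  have e1 : x⁻¹ * (x * g1) = g1 := by group
  unfold hom1
  rw [e1]

theorem hom2_eval (σ : (Fin 2 → G) → Rep.coind H.subtype B) (x g1 g2 : G) :
    (σ ![g1, g2]).1 x = hom2 σ x (x * g1) (x * g1 * g2) := by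
  have e1 : x⁻¹ * (x * g1) = g1 := by group
  have e2 : (x * g1)⁻¹ * (x * g1 * g2) = g2 := by group
  unfold hom2
  rw [e1, e2]

theorem hom3_eval (σ : (Fin 3 → G) → Rep.coind H.subtype B) (x g1 g2 g3 : G) :
    (σ ![g1, g2, g3]).1 x = hom3 σ x (x * g1) (x * g1 * g2) (x * g1 * g2 * g3) := by
  have e1 : x⁻¹ * (x * g1) = g1 := by group
  have e2 : (x * g1)⁻¹ * (x * g1 * g2) = g2 := by group
  have e3 : (x * g1 * g2)⁻¹ * (x * g1 * g2 * g3) = g3 := by group
  unfold hom3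
  rw [e1, e2, e3]

theorem hom1_smul (σ : (Fin 1 → G) → Rep.coind H.subtype B) (h : H) (a b : G) :
    hom1 σ ((h : G) * a) ((h : G) * b) = B.ρ h (hom1 σ a b) := by
  have e1 : ((h : G) * a)⁻¹ * ((h : G) * b) = a⁻¹ * b := by group
  unfold hom1
  rw [e1]
  exact coind_equivariant _ h a

theorem hom2_smul (σ : (Fin 2 → G) → Rep.coind H.subtype B) (h : H) (a b c : G) :
    hom2 σ ((h : G) * a) ((h : G) * b) ((h : G) * c) = B.ρ h (hom2 σ a b c) := by
  have e1 : ((h : G) * a)⁻¹ * ((h : G) * b) = a⁻¹ * b := by group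
  have e2 : ((h : G) * b)⁻¹ * ((h : G) * c) = b⁻¹ * c := by group
  unfold hom2
  rw [e1, e2]
  exact coind_equivariant _ h a

theorem hom3_smul (σ : (Fin 3 → G) → Rep.coind H.subtype B) (h : H) (a b c e : G) :
    hom3 σ ((h : G) * a) ((h : G) * b) ((h : G) * c) ((h : G) * e) = B.ρ h (hom3 σ a b c e) := by
  have e1 : ((h : G) * a)⁻¹ * ((h : G) * b) = a⁻¹ * b := by group
  have e2 : ((h : G) * b)⁻¹ * ((h : G) * c) = b⁻¹ * c := by group
  have e3 : ((h : G) * c)⁻¹ * ((h : G) * e) = c⁻¹ * e := by group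
  unfold hom3
  rw [e1, e2, e3]
  exact coind_equivariant _ h a

/-- The differential of a `1`-cochain in homogeneous form. -/
theorem d1_hom (σ : (Fin 1 → G) → Rep.coind H.subtype B) (a b c : G) :
    ((inhomogeneousCochains.d (Rep.coind H.subtype B) 1).hom σ ![a⁻¹ * b, b⁻¹ * c]).1 a =
      hom1 σ b c - hom1 σ a c + hom1 σ a b := by
  rw [d1_apply]
  show ((Rep.coind H.subtype B).ρ (a⁻¹ * b) (σ ![b⁻¹ * c])).1 a - (σ ![a⁻¹ * b * (b⁻¹ * c)]).1 a
    + (σ ![a⁻¹ * b]).1 a = _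
  have e1 : a⁻¹ * b * (b⁻¹ * c) = a⁻¹ * c := by group
  rw [coind_ρ_apply, mul_inv_cancel_left, e1]
  rfl

/-- The differential of a `2`-cochain in homogeneous form. -/
theorem d2_hom (σ : (Fin 2 → G) → Rep.coind H.subtype B) (a b c e : G) :
    ((inhomogeneousCochains.d (Rep.coind H.subtype B) 2).hom σ
        ![a⁻¹ * b, b⁻¹ * c, c⁻¹ * e]).1 a =
      hom2 σ b c e - hom2 σ a c e + hom2 σ a b e - hom2 σ a b c := by
  rw [d2_apply]
  show ((Rep.coind H.subtype B).ρ (a⁻¹ * b) (σ ![b⁻¹ * c, c⁻¹ * e])).1 a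
    - (σ ![a⁻¹ * b * (b⁻¹ * c), c⁻¹ * e]).1 a + (σ ![a⁻¹ * b, b⁻¹ * c * (c⁻¹ * e)]).1 a
    - (σ ![a⁻¹ * b, b⁻¹ * c]).1 a = _
  have e1 : a⁻¹ * b * (b⁻¹ * c) = a⁻¹ * c := by group
  have e2 : b⁻¹ * c * (c⁻¹ * e) = b⁻¹ * e := by group
  rw [coind_ρ_apply, mul_inv_cancel_left, e1, e2]
  rfl

/-- The differential of a `3`-cochain in homogeneous form. -/
theorem d3_hom (σ : (Fin 3 → G) → Rep.coind H.subtype B) (a b c e f : G) :
    ((inhomogeneousCochains.d (Rep.coind H.subtype B) 3).hom σ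
        ![a⁻¹ * b, b⁻¹ * c, c⁻¹ * e, e⁻¹ * f]).1 a =
      hom3 σ b c e f - hom3 σ a c e f + hom3 σ a b e f - hom3 σ a b c f + hom3 σ a b c e := by
  rw [d3_apply]
  show ((Rep.coind H.subtype B).ρ (a⁻¹ * b) (σ ![b⁻¹ * c, c⁻¹ * e, e⁻¹ * f])).1 a
    - (σ ![a⁻¹ * b * (b⁻¹ * c), c⁻¹ * e, e⁻¹ * f]).1 a
    + (σ ![a⁻¹ * b, b⁻¹ * c * (c⁻¹ * e), e⁻¹ * f]).1 a
    - (σ ![a⁻¹ * b, b⁻¹ * c, c⁻¹ * e * (e⁻¹ * f)]).1 a
    + (σ ![a⁻¹ * b, b⁻¹ * c, c⁻¹ * e]).1 a = _
  have e1 : a⁻¹ * b * (b⁻¹ * c) = a⁻¹ * c := by group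
  have e2 : b⁻¹ * c * (c⁻¹ * e) = b⁻¹ * e := by group
  have e3 : c⁻¹ * e * (e⁻¹ * f) = c⁻¹ * f := by group
  rw [coind_ρ_apply, mul_inv_cancel_left, e1, e2, e3]
  rfl

theorem d1_eval (σ : (Fin 1 → G) → Rep.coind H.subtype B) (x g1 g2 : G) :
    ((inhomogeneousCochains.d (Rep.coind H.subtype B) 1).hom σ ![g1, g2]).1 x =
      hom1 σ (x * g1) (x * g1 * g2) - hom1 σ x (x * g1 * g2) + hom1 σ x (x * g1) := by
  have h := d1_hom σ x (x * g1) (x * g1 * g2)
  have e1 : x⁻¹ * (x * g1) = g1 := by group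
  have e2 : (x * g1)⁻¹ * (x * g1 * g2) = g2 := by group
  rw [e1, e2] at h
  exact h

theorem d2_eval (σ : (Fin 2 → G) → Rep.coind H.subtype B) (x g1 g2 g3 : G) :
    ((inhomogeneousCochains.d (Rep.coind H.subtype B) 2).hom σ ![g1, g2, g3]).1 x =
      hom2 σ (x * g1) (x * g1 * g2) (x * g1 * g2 * g3) - hom2 σ x (x * g1 * g2) (x * g1 * g2 * g3)
        + hom2 σ x (x * g1) (x * g1 * g2 * g3) - hom2 σ x (x * g1) (x * g1 * g2) := by
  have h := d2_hom σ x (x * g1) (x * g1 * g2) (x * g1 * g2 * g3)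
  have e1 : x⁻¹ * (x * g1) = g1 := by group
  have e2 : (x * g1)⁻¹ * (x * g1 * g2) = g2 := by group
  have e3 : (x * g1 * g2)⁻¹ * (x * g1 * g2 * g3) = g3 := by group
  rw [e1, e2, e3] at h
  exact h

theorem hom2_cocycle (σ : (Fin 2 → G) → Rep.coind H.subtype B)
    (hσ : (inhomogeneousCochains.d (Rep.coind H.subtype B) 2).hom σ = 0) (a b c e : G) :
    hom2 σ b c e - hom2 σ a c e + hom2 σ a b e - hom2 σ a b c = 0 := by
  rw [← d2_hom, hσ]
  rfl

theorem hom3_cocycle (σ : (Fin 3 → G) → Rep.coind H.subtype B)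
    (hσ : (inhomogeneousCochains.d (Rep.coind H.subtype B) 3).hom σ = 0) (a b c e f : G) :
    hom3 σ b c e f - hom3 σ a c e f + hom3 σ a b e f - hom3 σ a b c f + hom3 σ a b c e = 0 := by
  rw [← d3_hom, hσ]
  rfl

end GSide

/-! ### Homogeneous forms of cochains of the subgroup -/

section HSide

variable {H : Subgroup G} {B : Rep.{0} k H}

/-- Homogeneous form of a `1`-cochain of `H`: `ψ(a, b) = a • τ(a⁻¹b)`. -/
def homH1 (τ : (Fin 1 → H) → B) (a b : H) : B := B.ρ a (τ ![a⁻¹ * b])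

/-- Homogeneous form of a `2`-cochain of `H`. -/
def homH2 (τ : (Fin 2 → H) → B) (a b c : H) : B := B.ρ a (τ ![a⁻¹ * b, b⁻¹ * c])

theorem ρ_mul_apply (a b : H) (v : B) : B.ρ a (B.ρ b v) = B.ρ (a * b) v := by
  rw [map_mul]
  rfl

theorem homH1_smul (τ : (Fin 1 → H) → B) (h a b : H) :
    homH1 τ (h * a) (h * b) = B.ρ h (homH1 τ a b) := by
  have e1 : (h * a)⁻¹ * (h * b) = a⁻¹ * b := by group
  unfold homH1
  rw [e1, ρ_mul_apply]

theorem homH2_smul (τ : (Fin 2 → H) → B) (h a b c : H) :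
    homH2 τ (h * a) (h * b) (h * c) = B.ρ h (homH2 τ a b c) := by
  have e1 : (h * a)⁻¹ * (h * b) = a⁻¹ * b := by group
  have e2 : (h * b)⁻¹ * (h * c) = b⁻¹ * c := by group
  unfold homH2
  rw [e1, e2, ρ_mul_apply]

/-- The differential of a `1`-cochain of `H` in homogeneous form. -/
theorem dH1_hom (τ : (Fin 1 → H) → B) (a b c : H) :
    B.ρ a ((inhomogeneousCochains.d B 1).hom τ ![a⁻¹ * b, b⁻¹ * c]) =
      homH1 τ b c - homH1 τ a c + homH1 τ a b := by
  have e1 : a⁻¹ * b * (b⁻¹ * c) = a⁻¹ * c := by group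
  rw [d1_apply, map_add, map_sub, ρ_mul_apply, mul_inv_cancel_left, e1]
  rfl

/-- The differential of a `2`-cochain of `H` in homogeneous form. -/
theorem dH2_hom (τ : (Fin 2 → H) → B) (a b c e : H) :
    B.ρ a ((inhomogeneousCochains.d B 2).hom τ ![a⁻¹ * b, b⁻¹ * c, c⁻¹ * e]) =
      homH2 τ b c e - homH2 τ a c e + homH2 τ a b e - homH2 τ a b c := by
  have e1 : a⁻¹ * b * (b⁻¹ * c) = a⁻¹ * c := by group
  have e2 : b⁻¹ * c * (c⁻¹ * e) = b⁻¹ * e := by group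
  rw [d2_apply, map_sub, map_add, map_sub, ρ_mul_apply, mul_inv_cancel_left, e1, e2]
  rfl

/-- The Shapiro map on cochains (as plain functions). -/
def shFun {n : ℕ} (σ : (Fin n → G) → Rep.coind H.subtype B) : (Fin n → H) → B :=
  fun g => (σ (fun i => (g i : G))).1 1

theorem hom2_coe (σ : (Fin 2 → G) → Rep.coind H.subtype B) (a b c : H) :
    hom2 σ (a : G) (b : G) (c : G) = homH2 (shFun σ) a b c := by
  have e : (fun i => ((![a⁻¹ * b, b⁻¹ * c] : Fin 2 → H) i : G)) =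
      ![(a : G)⁻¹ * (b : G), (b : G)⁻¹ * (c : G)] := by
    funext i; fin_cases i <;> rfl
  show (σ ![(a : G)⁻¹ * (b : G), (b : G)⁻¹ * (c : G)]).1 (a : G) =
    B.ρ a ((σ (fun i => ((![a⁻¹ * b, b⁻¹ * c] : Fin 2 → H) i : G))).1 1)
  rw [e, ← coind_equivariant, mul_one]

theorem hom3_coe (σ : (Fin 3 → G) → Rep.coind H.subtype B) (a b c e : H) :
    hom3 σ (a : G) (b : G) (c : G) (e : G) =
      B.ρ a (shFun σ ![a⁻¹ * b, b⁻¹ * c, c⁻¹ * e]) := by
  have e' : (fun i => ((![a⁻¹ * b, b⁻¹ * c, c⁻¹ * e] : Fin 3 → H) i : G)) =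
      ![(a : G)⁻¹ * (b : G), (b : G)⁻¹ * (c : G), (c : G)⁻¹ * (e : G)] := by
    funext i; fin_cases i <;> rfl
  show (σ ![(a : G)⁻¹ * (b : G), (b : G)⁻¹ * (c : G), (c : G)⁻¹ * (e : G)]).1 (a : G) =
    B.ρ a ((σ (fun i => ((![a⁻¹ * b, b⁻¹ * c, c⁻¹ * e] : Fin 3 → H) i : G))).1 1)
  rw [e', ← coind_equivariant, mul_one]

end HSide

/-! ### Cochains from homogeneous functions -/

section Coch

variable {H : Subgroup G} {B : Rep.{0} k H}

/-- The `1`-cochain with homogeneous form `Ω`. -/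
def coch1 (Ω : G → G → B) (hΩ : ∀ (h : H) (a b : G), Ω ((h : G) * a) ((h : G) * b) = B.ρ h (Ω a b)) :
    (Fin 1 → G) → Rep.coind H.subtype B :=
  fun g => ⟨fun x => Ω x (x * g 0), fun h x => by
    show Ω ((h : G) * x) ((h : G) * x * g 0) = B.ρ h (Ω x (x * g 0))
    rw [mul_assoc]
    exact hΩ h x (x * g 0)⟩

/-- The `2`-cochain with homogeneous form `Ω`. -/
def coch2 (Ω : G → G → G → B)
    (hΩ : ∀ (h : H) (a b c : G), Ω ((h : G) * a) ((h : G) * b) ((h : G) * c) = B.ρ h (Ω a b c)) :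
    (Fin 2 → G) → Rep.coind H.subtype B :=
  fun g => ⟨fun x => Ω x (x * g 0) (x * g 0 * g 1), fun h x => by
    show Ω ((h : G) * x) ((h : G) * x * g 0) ((h : G) * x * g 0 * g 1) =
      B.ρ h (Ω x (x * g 0) (x * g 0 * g 1))
    rw [mul_assoc, mul_assoc, mul_assoc, ← mul_assoc x]
    exact hΩ h x (x * g 0) (x * g 0 * g 1)⟩

theorem hom1_coch1 (Ω : G → G → B)
    (hΩ : ∀ (h : H) (a b : G), Ω ((h : G) * a) ((h : G) * b) = B.ρ h (Ω a b)) (a b : G) :
    hom1 (coch1 Ω hΩ) a b = Ω a b := by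
  show Ω a (a * (a⁻¹ * b)) = Ω a b
  rw [mul_inv_cancel_left]

theorem hom2_coch2 (Ω : G → G → G → B)
    (hΩ : ∀ (h : H) (a b c : G), Ω ((h : G) * a) ((h : G) * b) ((h : G) * c) = B.ρ h (Ω a b c))
    (a b c : G) : hom2 (coch2 Ω hΩ) a b c = Ω a b c := by
  show Ω a (a * (a⁻¹ * b)) (a * (a⁻¹ * b) * (b⁻¹ * c)) = Ω a b c
  rw [mul_inv_cancel_left, mul_inv_cancel_left]

theorem isLCAt_coch1 {U : Subgroup G} (hU : U.Normal) (Ω : G → G → B)
    (hΩ : ∀ (h : H) (a b : G), Ω ((h : G) * a) ((h : G) * b) = B.ρ h (Ω a b))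
    (hΩ' : RInv2 U Ω) : IsLCAt U (Rep.coind H.subtype B) (coch1 Ω hΩ) := by
  refine ⟨fun g s hs => ?_, fun g u hu => ?_⟩
  · apply Subtype.ext
    funext x
    show Ω x (x * (g 0 * s 0)) = Ω x (x * g 0)
    have h := hΩ' x (x * g 0) 1 (s 0) U.one_mem (hs 0)
    rw [mul_one, mul_assoc] at h
    exact h
  · apply Subtype.ext
    funext x
    show Ω (x * u) (x * u * g 0) = Ω x (x * g 0)
    have h := hΩ' x (x * g 0) u ((g 0)⁻¹ * u * g 0) hu (hU.conj_mem' u hu _)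
    have e : x * g 0 * ((g 0)⁻¹ * u * g 0) = x * u * g 0 := by group
    rw [e] at h
    exact h

theorem isLCAt_coch2 {U : Subgroup G} (hU : U.Normal) (Ω : G → G → G → B)
    (hΩ : ∀ (h : H) (a b c : G), Ω ((h : G) * a) ((h : G) * b) ((h : G) * c) = B.ρ h (Ω a b c))
    (hΩ' : RInv3 U Ω) : IsLCAt U (Rep.coind H.subtype B) (coch2 Ω hΩ) := by
  refine ⟨fun g s hs => ?_, fun g u hu => ?_⟩
  · apply Subtype.ext
    funext x
    show Ω x (x * (g 0 * s 0)) (x * (g 0 * s 0) * (g 1 * s 1)) = Ω x (x * g 0) (x * g 0 * g 1)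
    have h := hΩ' x (x * g 0) (x * g 0 * g 1) 1 (s 0) ((g 1)⁻¹ * s 0 * g 1 * s 1) U.one_mem (hs 0)
      (U.mul_mem (hU.conj_mem' _ (hs 0) _) (hs 1))
    have e1 : x * g 0 * s 0 = x * (g 0 * s 0) := by group
    have e2 : x * g 0 * g 1 * ((g 1)⁻¹ * s 0 * g 1 * s 1) = x * (g 0 * s 0) * (g 1 * s 1) := by
      group
    rw [mul_one, e1, e2] at h
    exact h
  · apply Subtype.ext
    funext x
    show Ω (x * u) (x * u * g 0) (x * u * g 0 * g 1) = Ω x (x * g 0) (x * g 0 * g 1)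
    have h := hΩ' x (x * g 0) (x * g 0 * g 1) u ((g 0)⁻¹ * u * g 0)
      ((g 0 * g 1)⁻¹ * u * (g 0 * g 1)) hu (hU.conj_mem' u hu _) (hU.conj_mem' u hu _)
    have e1 : x * g 0 * ((g 0)⁻¹ * u * g 0) = x * u * g 0 := by group
    have e2 : x * g 0 * g 1 * ((g 0 * g 1)⁻¹ * u * (g 0 * g 1)) = x * u * g 0 * g 1 := by group
    rw [e1, e2] at h
    exact h

end Coch

/-! ### Invariance of the homogeneous forms -/

section Inv

variable {H : Subgroup G} {B : Rep.{0} k H}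

theorem hom2_rinv {U : Subgroup G} (hU : U.Normal) (σ : (Fin 2 → G) → Rep.coind H.subtype B)
    (hσ : IsLCAt U (Rep.coind H.subtype B) σ) : RInv3 U (hom2 σ) := by
  intro a b c u v w hu hv hw
  have e : σ ![a⁻¹ * b, b⁻¹ * c] = σ ![(a * u)⁻¹ * (b * v), (b * v)⁻¹ * (c * w)] := by
    refine hσ.congr fun i => ?_
    fin_cases i
    · exact slot_mem hU a b u v hu hv
    · exact slot_mem hU b c v w hv hw
  show (σ ![(a * u)⁻¹ * (b * v), (b * v)⁻¹ * (c * w)]).1 (a * u) = (σ ![a⁻¹ * b, b⁻¹ * c]).1 a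
  rw [← e, ← coind_ρ_apply, hσ.2 _ u hu]

theorem hom3_rinv {U : Subgroup G} (hU : U.Normal) (σ : (Fin 3 → G) → Rep.coind H.subtype B)
    (hσ : IsLCAt U (Rep.coind H.subtype B) σ) : RInv4 U (hom3 σ) := by
  intro a b c e u v w z hu hv hw hz
  have e' : σ ![a⁻¹ * b, b⁻¹ * c, c⁻¹ * e] =
      σ ![(a * u)⁻¹ * (b * v), (b * v)⁻¹ * (c * w), (c * w)⁻¹ * (e * z)] := by
    refine hσ.congr fun i => ?_
    fin_cases i
    · exact slot_mem hU a b u v hu hv
    · exact slot_mem hU b c v w hv hw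
    · exact slot_mem hU c e w z hw hz
  show (σ ![(a * u)⁻¹ * (b * v), (b * v)⁻¹ * (c * w), (c * w)⁻¹ * (e * z)]).1 (a * u) =
    (σ ![a⁻¹ * b, b⁻¹ * c, c⁻¹ * e]).1 a
  rw [← e', ← coind_ρ_apply, hσ.2 _ u hu]

theorem homH1_rinv {V : Subgroup H} (hV : V.Normal) (τ : (Fin 1 → H) → B)
    (hτ : IsLCAt V B τ) : RInv2 V (homH1 τ) := by
  intro a b u v hu hv
  have e : τ ![a⁻¹ * b] = τ ![(a * u)⁻¹ * (b * v)] := by
    refine hτ.congr fun i => ?_
    fin_cases i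
    exact slot_mem hV a b u v hu hv
  show B.ρ (a * u) (τ ![(a * u)⁻¹ * (b * v)]) = B.ρ a (τ ![a⁻¹ * b])
  rw [← e, ← ρ_mul_apply, hτ.2 _ u hu]

theorem homH2_rinv {V : Subgroup H} (hV : V.Normal) (τ : (Fin 2 → H) → B)
    (hτ : IsLCAt V B τ) : RInv3 V (homH2 τ) := by
  intro a b c u v w hu hv hw
  have e : τ ![a⁻¹ * b, b⁻¹ * c] = τ ![(a * u)⁻¹ * (b * v), (b * v)⁻¹ * (c * w)] := by
    refine hτ.congr fun i => ?_
    fin_cases i
    · exact slot_mem hV a b u v hu hv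
    · exact slot_mem hV b c v w hv hw
  show B.ρ (a * u) (τ ![(a * u)⁻¹ * (b * v), (b * v)⁻¹ * (c * w)]) =
    B.ρ a (τ ![a⁻¹ * b, b⁻¹ * c])
  rw [← e, ← ρ_mul_apply, hτ.2 _ u hu]

variable (R : Retraction H)

theorem rinv2_comp {M : Type} {U : Subgroup G} (hU : U.Normal) (hUH : U ≤ H) {Ψ : H → H → M}
    (hΨ : RInv2 (U.subgroupOf H) Ψ) : RInv2 U (fun a b => Ψ (R.r a) (R.r b)) := by
  intro a b u v hu hv
  show Ψ (R.r (a * u)) (R.r (b * v)) = Ψ (R.r a) (R.r b)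
  rw [R.apply_mul a u, R.apply_mul b v]
  exact hΨ _ _ _ _ (R.apply_mul_mem_subgroupOf hU hUH a u hu)
    (R.apply_mul_mem_subgroupOf hU hUH b v hv)

theorem rinv3_comp {M : Type} {U : Subgroup G} (hU : U.Normal) (hUH : U ≤ H) {Ψ : H → H → H → M}
    (hΨ : RInv3 (U.subgroupOf H) Ψ) : RInv3 U (fun a b c => Ψ (R.r a) (R.r b) (R.r c)) := by
  intro a b c u v w hu hv hw
  show Ψ (R.r (a * u)) (R.r (b * v)) (R.r (c * w)) = Ψ (R.r a) (R.r b) (R.r c)
  rw [R.apply_mul a u, R.apply_mul b v, R.apply_mul c w]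
  exact hΨ _ _ _ _ _ _ (R.apply_mul_mem_subgroupOf hU hUH a u hu)
    (R.apply_mul_mem_subgroupOf hU hUH b v hv) (R.apply_mul_mem_subgroupOf hU hUH c w hw)

/-- The prism operator in degree `2` preserves invariance. -/
theorem rinv2_prism {M : Type} [AddCommGroup M] {U : Subgroup G} (hU : U.Normal) (hUH : U ≤ H)
    {Φ : G → G → G → M} (hΦ : RInv3 U Φ) :
    RInv2 U (fun a b => Φ (R.r a) a b - Φ (R.r a) (R.r b) b) := by
  intro a b u v hu hv
  show Φ (R.r (a * u)) (a * u) (b * v) - Φ (R.r (a * u)) (R.r (b * v)) (b * v) =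
    Φ (R.r a) a b - Φ (R.r a) (R.r b) b
  rw [R.coe_apply_mul a u, R.coe_apply_mul b v,
    hΦ _ _ _ _ _ _ (R.apply_mul_mem hU hUH a u hu) hu hv,
    hΦ _ _ _ _ _ _ (R.apply_mul_mem hU hUH a u hu) (R.apply_mul_mem hU hUH b v hv) hv]

/-- The prism operator in degree `3` preserves invariance. -/
theorem rinv3_prism {M : Type} [AddCommGroup M] {U : Subgroup G} (hU : U.Normal) (hUH : U ≤ H)
    {Φ : G → G → G → G → M} (hΦ : RInv4 U Φ) :
    RInv3 U (fun a b c => Φ (R.r a) a b c - Φ (R.r a) (R.r b) b c + Φ (R.r a) (R.r b) (R.r c) c) := by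
  intro a b c u v w hu hv hw
  show Φ (R.r (a * u)) (a * u) (b * v) (c * w) - Φ (R.r (a * u)) (R.r (b * v)) (b * v) (c * w)
      + Φ (R.r (a * u)) (R.r (b * v)) (R.r (c * w)) (c * w) =
    Φ (R.r a) a b c - Φ (R.r a) (R.r b) b c + Φ (R.r a) (R.r b) (R.r c) c
  rw [R.coe_apply_mul a u, R.coe_apply_mul b v, R.coe_apply_mul c w,
    hΦ _ _ _ _ _ _ _ _ (R.apply_mul_mem hU hUH a u hu) hu hv hw,
    hΦ _ _ _ _ _ _ _ _ (R.apply_mul_mem hU hUH a u hu) (R.apply_mul_mem hU hUH b v hv) hv hw,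
    hΦ _ _ _ _ _ _ _ _ (R.apply_mul_mem hU hUH a u hu) (R.apply_mul_mem hU hUH b v hv)
      (R.apply_mul_mem hU hUH c w hw) hw]

end Inv

end Fermat.Agent.S55.H99
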