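/-
S55 / Program C, package C9b, sub-package (SH) (helper99): Shapiro's lemma for level-constant
cohomology — the three cochain-level constructions.

`H ≤ G`, `B` a representation of `H`, `C = Coind_H^G B`, `R` a left-`H`-equivariant retraction
`G → H`, `U ≤ H` a normal subgroup of `G`:
* `sh_surj2_core`: a `U`-constant `2`-cocycle `τ` of `H` in `B` is `sh σ` for a `U`-constant
  `2`-cocycle `σ` of `G` in `C`;
* `sh_inj2_core`, `sh_inj3_core`: a `U`-constant `n`-cocycle `σ` of `G` in `C` (`n = 2, 3`) with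
  `sh σ = d τ`, `τ` a `U`-constant cochain of `H`, is `d ω` for a `U`-constant cochain `ω`.
-/
import Fermat.Agent.S55.H99.ShapiroCore

set_option autoImplicit false

open CategoryTheory groupCohomology

noncomputable section

namespace Fermat.Agent.S55.H99

open Fermat.Agent.S55.H49

variable {G : Type} [Group G] {k : Type} [CommRing k] {H : Subgroup G} {B : Rep.{0} k H}
  (R : Retraction H)

/-! ### Surjectivity in degree 2 -/

/-- The homogeneous form of the lift of a `2`-cochain of `H`. -/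
def liftΩ2 (τ : (Fin 2 → H) → B) (a b c : G) : B := homH2 τ (R.r a) (R.r b) (R.r c)

theorem liftΩ2_smul (τ : (Fin 2 → H) → B) (h : H) (a b c : G) :
    liftΩ2 R τ ((h : G) * a) ((h : G) * b) ((h : G) * c) = B.ρ h (liftΩ2 R τ a b c) := by
  unfold liftΩ2
  rw [R.equiv, R.equiv, R.equiv, homH2_smul]

include R in
theorem sh_surj2_core {U : Subgroup G} (hU : U.Normal) (hUH : U ≤ H)
    (τ : (Fin 2 → H) → B) (hτ : (inhomogeneousCochains.d B 2).hom τ = 0)
    (hτU : IsLCAt (U.subgroupOf H) B τ) :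
    ∃ σ : (Fin 2 → G) → Rep.coind H.subtype B, IsLCAt U (Rep.coind H.subtype B) σ ∧
      (inhomogeneousCochains.d (Rep.coind H.subtype B) 2).hom σ = 0 ∧ shFun σ = τ := by
  have hV : (U.subgroupOf H).Normal := hU.subgroupOf H
  refine ⟨coch2 (liftΩ2 R τ) (liftΩ2_smul R τ),
    isLCAt_coch2 hU _ _ (rinv3_comp R hU hUH (homH2_rinv hV τ hτU)), ?_, ?_⟩
  · funext g
    obtain ⟨g1, g2, g3, rfl⟩ : ∃ a b c, g = ![a, b, c] := ⟨g 0, g 1, g 2, vec3_eta g⟩
    apply Subtype.ext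
    funext x
    rw [d2_eval, hom2_coch2, hom2_coch2, hom2_coch2, hom2_coch2]
    unfold liftΩ2
    rw [← dH2_hom, hτ]
    exact map_zero _
  · funext g
    show homH2 τ (R.r 1) (R.r (1 * (g 0 : G))) (R.r (1 * (g 0 : G) * (g 1 : G))) = τ g
    rw [one_mul, R.one, ← Subgroup.coe_mul, R.apply_coe, R.apply_coe]
    unfold homH2
    rw [inv_one, one_mul, inv_mul_cancel_left, map_one, ← vec2_eta g]
    rfl

/-! ### Injectivity in degree 2 -/

/-- The homogeneous form of the primitive, degree `2`. -/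
def prismΩ1 (σ : (Fin 2 → G) → Rep.coind H.subtype B) (τ : (Fin 1 → H) → B) (a b : G) : B :=
  hom2 σ (R.r a) a b - hom2 σ (R.r a) (R.r b) b + homH1 τ (R.r a) (R.r b)

theorem prismΩ1_smul (σ : (Fin 2 → G) → Rep.coind H.subtype B) (τ : (Fin 1 → H) → B) (h : H)
    (a b : G) : prismΩ1 R σ τ ((h : G) * a) ((h : G) * b) = B.ρ h (prismΩ1 R σ τ a b) := by
  unfold prismΩ1
  rw [R.equiv, R.equiv, Subgroup.coe_mul, Subgroup.coe_mul, hom2_smul, hom2_smul, homH1_smul,
    map_add, map_sub]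

theorem prismΩ1_rinv {U : Subgroup G} (hU : U.Normal) (hUH : U ≤ H)
    (σ : (Fin 2 → G) → Rep.coind H.subtype B) (hσU : IsLCAt U (Rep.coind H.subtype B) σ)
    (τ : (Fin 1 → H) → B) (hτU : IsLCAt (U.subgroupOf H) B τ) : RInv2 U (prismΩ1 R σ τ) := by
  have hV : (U.subgroupOf H).Normal := hU.subgroupOf H
  have h1 := rinv2_prism R hU hUH (hom2_rinv hU σ hσU)
  have h2 := rinv2_comp R hU hUH (homH1_rinv hV τ hτU)
  intro a b u v hu hv
  have e1 := h1 a b u v hu hv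
  have e2 := h2 a b u v hu hv
  show hom2 σ (R.r (a * u)) (a * u) (b * v) - hom2 σ (R.r (a * u)) (R.r (b * v)) (b * v)
      + homH1 τ (R.r (a * u)) (R.r (b * v)) =
    hom2 σ (R.r a) a b - hom2 σ (R.r a) (R.r b) b + homH1 τ (R.r a) (R.r b)
  exact congrArg₂ (· + ·) e1 e2

include R in
theorem sh_inj2_core {U : Subgroup G} (hU : U.Normal) (hUH : U ≤ H)
    (σ : (Fin 2 → G) → Rep.coind H.subtype B)
    (hσ : (inhomogeneousCochains.d (Rep.coind H.subtype B) 2).hom σ = 0)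
    (hσU : IsLCAt U (Rep.coind H.subtype B) σ)
    (τ : (Fin 1 → H) → B) (hτU : IsLCAt (U.subgroupOf H) B τ)
    (hτ : shFun σ = (inhomogeneousCochains.d B 1).hom τ) :
    ∃ ω : (Fin 1 → G) → Rep.coind H.subtype B, IsLCAt U (Rep.coind H.subtype B) ω ∧
      (inhomogeneousCochains.d (Rep.coind H.subtype B) 1).hom ω = σ := by
  refine ⟨coch1 (prismΩ1 R σ τ) (prismΩ1_smul R σ τ),
    isLCAt_coch1 hU _ _ (prismΩ1_rinv R hU hUH σ hσU τ hτU), ?_⟩
  funext g
  obtain ⟨g1, g2, rfl⟩ : ∃ a b, g = ![a, b] := ⟨g 0, g 1, vec2_eta g⟩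
  apply Subtype.ext
  funext x
  rw [d1_eval, hom1_coch1, hom1_coch1, hom1_coch1, hom2_eval]
  have hp := prism2 (hom2 σ) (fun g => (R.r g : G)) (hom2_cocycle σ hσ) x (x * g1) (x * g1 * g2)
  have hc : hom2 σ (R.r x) (R.r (x * g1)) (R.r (x * g1 * g2)) =
      homH1 τ (R.r (x * g1)) (R.r (x * g1 * g2)) - homH1 τ (R.r x) (R.r (x * g1 * g2))
        + homH1 τ (R.r x) (R.r (x * g1)) := by
    rw [hom2_coe, hτ, ← dH1_hom]
    rfl
  unfold prismΩ1
  linear_combination (norm := abel) -hp - hc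

/-! ### Injectivity in degree 3 -/

/-- The homogeneous form of the primitive, degree `3`. -/
def prismΩ2 (σ : (Fin 3 → G) → Rep.coind H.subtype B) (τ : (Fin 2 → H) → B) (a b c : G) : B :=
  hom3 σ (R.r a) a b c - hom3 σ (R.r a) (R.r b) b c + hom3 σ (R.r a) (R.r b) (R.r c) c
    + homH2 τ (R.r a) (R.r b) (R.r c)

theorem prismΩ2_smul (σ : (Fin 3 → G) → Rep.coind H.subtype B) (τ : (Fin 2 → H) → B) (h : H)
    (a b c : G) :
    prismΩ2 R σ τ ((h : G) * a) ((h : G) * b) ((h : G) * c) = B.ρ h (prismΩ2 R σ τ a b c) := by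
  unfold prismΩ2
  rw [R.equiv, R.equiv, R.equiv, Subgroup.coe_mul, Subgroup.coe_mul, Subgroup.coe_mul,
    hom3_smul, hom3_smul, hom3_smul, homH2_smul, map_add, map_add, map_sub]

theorem prismΩ2_rinv {U : Subgroup G} (hU : U.Normal) (hUH : U ≤ H)
    (σ : (Fin 3 → G) → Rep.coind H.subtype B) (hσU : IsLCAt U (Rep.coind H.subtype B) σ)
    (τ : (Fin 2 → H) → B) (hτU : IsLCAt (U.subgroupOf H) B τ) : RInv3 U (prismΩ2 R σ τ) := by
  have hV : (U.subgroupOf H).Normal := hU.subgroupOf H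
  have h1 := rinv3_prism R hU hUH (hom3_rinv hU σ hσU)
  have h2 := rinv3_comp R hU hUH (homH2_rinv hV τ hτU)
  intro a b c u v w hu hv hw
  have e1 := h1 a b c u v w hu hv hw
  have e2 := h2 a b c u v w hu hv hw
  show hom3 σ (R.r (a * u)) (a * u) (b * v) (c * w)
      - hom3 σ (R.r (a * u)) (R.r (b * v)) (b * v) (c * w)
      + hom3 σ (R.r (a * u)) (R.r (b * v)) (R.r (c * w)) (c * w)
      + homH2 τ (R.r (a * u)) (R.r (b * v)) (R.r (c * w)) =
    hom3 σ (R.r a) a b c - hom3 σ (R.r a) (R.r b) b c + hom3 σ (R.r a) (R.r b) (R.r c) c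
      + homH2 τ (R.r a) (R.r b) (R.r c)
  exact congrArg₂ (· + ·) e1 e2

include R in
theorem sh_inj3_core {U : Subgroup G} (hU : U.Normal) (hUH : U ≤ H)
    (σ : (Fin 3 → G) → Rep.coind H.subtype B)
    (hσ : (inhomogeneousCochains.d (Rep.coind H.subtype B) 3).hom σ = 0)
    (hσU : IsLCAt U (Rep.coind H.subtype B) σ)
    (τ : (Fin 2 → H) → B) (hτU : IsLCAt (U.subgroupOf H) B τ)
    (hτ : shFun σ = (inhomogeneousCochains.d B 2).hom τ) :
    ∃ ω : (Fin 2 → G) → Rep.coind H.subtype B, IsLCAt U (Rep.coind H.subtype B) ω ∧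
      (inhomogeneousCochains.d (Rep.coind H.subtype B) 2).hom ω = σ := by
  refine ⟨coch2 (prismΩ2 R σ τ) (prismΩ2_smul R σ τ),
    isLCAt_coch2 hU _ _ (prismΩ2_rinv R hU hUH σ hσU τ hτU), ?_⟩
  funext g
  obtain ⟨g1, g2, g3, rfl⟩ : ∃ a b c, g = ![a, b, c] := ⟨g 0, g 1, g 2, vec3_eta g⟩
  apply Subtype.ext
  funext x
  rw [d2_eval, hom2_coch2, hom2_coch2, hom2_coch2, hom2_coch2, hom3_eval]
  have hp := prism3 (hom3 σ) (fun g => (R.r g : G)) (hom3_cocycle σ hσ) x (x * g1) (x * g1 * g2)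
    (x * g1 * g2 * g3)
  have hc : hom3 σ (R.r x) (R.r (x * g1)) (R.r (x * g1 * g2)) (R.r (x * g1 * g2 * g3)) =
      homH2 τ (R.r (x * g1)) (R.r (x * g1 * g2)) (R.r (x * g1 * g2 * g3))
        - homH2 τ (R.r x) (R.r (x * g1 * g2)) (R.r (x * g1 * g2 * g3))
        + homH2 τ (R.r x) (R.r (x * g1)) (R.r (x * g1 * g2 * g3))
        - homH2 τ (R.r x) (R.r (x * g1)) (R.r (x * g1 * g2)) := by
    rw [hom3_coe, hτ, dH2_hom]
  unfold prismΩ2
  linear_combination (norm := abel) -hp - hc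

end Fermat.Agent.S55.H99
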