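/-
S55 / Program C, package C9b, sub-package (SH) (helper99): Shapiro's lemma for level-constant
cohomology.

  `shInj_two : ShInjStatement 2`,  `shInj_three : ShInjStatement 3`,  `shSurj_two : ShSurjStatement 2`

for the Shapiro map `sh h B n : Hlc D (Coind_H^G B) n → Hlc D' B n` of `H99/ShapiroDefs.lean`
(`H ≤ G` containing a normal level subgroup of `D`, `D'` the restriction of `D` to `H`, `B` any
representation of `H`).
-/
import Fermat.Agent.S55.H99.ShapiroCore2
import Fermat.Agent.S55.H49.ConeApi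

set_option autoImplicit false

open CategoryTheory groupCohomology

noncomputable section

namespace Fermat.Agent.S55.H99

open Fermat.Agent.S55.H49

variable {G : Type} [Group G] {k : Type} [CommRing k]

/-- The differential of `lcComplex` on underlying functions. -/
theorem shLcValC_d (D : LevelDatum G) (M : Rep.{0} k G) (n : ℕ) (y : (lcComplex D M).X n) :
    lcValC (((lcComplex D M).d n (n + 1)).hom y) =
      (inhomogeneousCochains.d M n).hom (lcValC y) := by
  simp only [lcComplex, CochainComplex.of_d]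
  rfl

/-- A level-constant cochain, from a function. -/
def shMkX (D : LevelDatum G) (M : Rep.{0} k G) {n : ℕ} (f : (Fin n → G) → M) (hf : IsLC D M f) :
    (lcComplex D M).X n :=
  (⟨f, hf⟩ : lcCochains D M n)

theorem lcValC_shMkX (D : LevelDatum G) (M : Rep.{0} k G) {n : ℕ} (f : (Fin n → G) → M)
    (hf : IsLC D M f) : lcValC (shMkX D M f hf) = f := rfl

theorem isLC_lcValC_sh {D : LevelDatum G} {M : Rep.{0} k G} {n : ℕ} (y : (lcComplex D M).X n) :
    IsLC D M (lcValC y) :=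
  (show lcCochains D M n from y).2

/-- A level-constant cocycle, from a function. -/
def mkCyc (D : LevelDatum G) (M : Rep.{0} k G) (n : ℕ) (f : (Fin n → G) → M) (hf : IsLC D M f)
    (hd : (inhomogeneousCochains.d M n).hom f = 0) : cyc (lcComplex D M) n :=
  ⟨shMkX D M f hf, by
    rw [mem_cyc]
    apply lcValC_injective
    rw [shLcValC_d]
    exact hd⟩

theorem lcVal_mkCyc (D : LevelDatum G) (M : Rep.{0} k G) (n : ℕ) (f : (Fin n → G) → M)
    (hf : IsLC D M f) (hd : (inhomogeneousCochains.d M n).hom f = 0) :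
    lcVal (mkCyc D M n f hf hd) = f := rfl

theorem lcVal_d_eq_zero {D : LevelDatum G} {M : Rep.{0} k G} {n : ℕ}
    (z : cyc (lcComplex D M) n) : (inhomogeneousCochains.d M n).hom (lcVal z) = 0 := by
  have h := congrArg lcValC (mem_cyc.mp z.2)
  rw [shLcValC_d] at h
  exact h

/-- A common normal level below `H` for a cochain of `G` and a cochain of `H`. -/
theorem exists_common_sub {D : LevelDatum G} {H : Subgroup G} {D' : LevelDatum H}
    (h : IsRestrict D H D') (hH : ContainsLevel D H) {M : Rep.{0} k G} {B : Rep.{0} k H}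
    {n m : ℕ} {σ : (Fin n → G) → M} (hσ : IsLC D M σ) {τ : (Fin m → H) → B} (hτ : IsLC D' B τ) :
    ∃ F : IntermediateField ℚ (AlgebraicClosure ℚ), D.Lev F ∧ (F.fixingSubgroup).Normal ∧
      D.sub F ≤ H ∧ IsLCAt (D.sub F) M σ ∧ IsLCAt ((D.sub F).subgroupOf H) B τ := by
  obtain ⟨F1, hF1, hN1, hσ1⟩ := hσ
  obtain ⟨F2, hF2, hN2, hτ2⟩ := hτ
  obtain ⟨F0, hF0, hN0, hF0H⟩ := hH
  refine ⟨F1 ⊔ F2 ⊔ F0, D.sup (D.sup hF1 ((h.lev_iff _).1 hF2)) hF0,
    normal_fixingSubgroup_sup (normal_fixingSubgroup_sup hN1 hN2) hN0,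
    (D.sub_antitone le_sup_right).trans hF0H,
    hσ1.mono (D.sub_antitone (le_sup_left.trans le_sup_left)), hτ2.mono ?_⟩
  intro s hs
  have hs' : D.r (s : G) ∈ (F1 ⊔ F2 ⊔ F0).fixingSubgroup := Subgroup.mem_subgroupOf.1 hs
  show D'.r s ∈ F2.fixingSubgroup
  rw [h.r_eq]
  exact IntermediateField.fixingSubgroup_antitone (le_sup_right.trans le_sup_left) hs'

/-- A normal level below `H` for a cochain of `H`. -/
theorem exists_sub_of_isLC {D : LevelDatum G} {H : Subgroup G} {D' : LevelDatum H}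
    (h : IsRestrict D H D') (hH : ContainsLevel D H) {B : Rep.{0} k H}
    {m : ℕ} {τ : (Fin m → H) → B} (hτ : IsLC D' B τ) :
    ∃ F : IntermediateField ℚ (AlgebraicClosure ℚ), D.Lev F ∧ (F.fixingSubgroup).Normal ∧
      D.sub F ≤ H ∧ IsLCAt ((D.sub F).subgroupOf H) B τ := by
  obtain ⟨F2, hF2, hN2, hτ2⟩ := hτ
  obtain ⟨F0, hF0, hN0, hF0H⟩ := hH
  refine ⟨F2 ⊔ F0, D.sup ((h.lev_iff _).1 hF2) hF0, normal_fixingSubgroup_sup hN2 hN0,
    (D.sub_antitone le_sup_right).trans hF0H, hτ2.mono ?_⟩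
  intro s hs
  have hs' : D.r (s : G) ∈ (F2 ⊔ F0).fixingSubgroup := Subgroup.mem_subgroupOf.1 hs
  show D'.r s ∈ F2.fixingSubgroup
  rw [h.r_eq]
  exact IntermediateField.fixingSubgroup_antitone le_sup_left hs'

/-- The Shapiro map on a class. -/
theorem sh_cls {D : LevelDatum G} {H : Subgroup G} {D' : LevelDatum H} (h : IsRestrict D H D')
    (B : Rep.{0} k H) (n : ℕ) (z : cyc (lcComplex D (Rep.coind H.subtype B)) n) :
    sh h B n ((cls (lcComplex D (Rep.coind H.subtype B)) n).hom z) =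
      (cls (lcComplex D' B) n).hom (cycMap (shCo h B) n z) :=
  homologyMap_cls (shCo h B) n z

theorem lcVal_cycMap_shCo {D : LevelDatum G} {H : Subgroup G} {D' : LevelDatum H}
    (h : IsRestrict D H D') (B : Rep.{0} k H) (n : ℕ)
    (z : cyc (lcComplex D (Rep.coind H.subtype B)) n) :
    lcVal (cycMap (shCo h B) n z) = shFun (lcVal z) := rfl

/-- (SH-surj) in degree `2`. -/
theorem shSurj_two : ShSurjStatement 2 := by
  intro G _ k _ D H D' h hH B x
  obtain ⟨R⟩ := exists_retraction H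
  obtain ⟨z, rfl⟩ := cls_surjective (lcComplex D' B) 2 x
  obtain ⟨F, hF, hN, hFH, hτU⟩ := exists_sub_of_isLC h hH (isLC_lcValC_sh z.1)
  obtain ⟨σ, hσU, hσ, hsh⟩ :=
    sh_surj2_core R (D.sub_normal hN) hFH (lcVal z) (lcVal_d_eq_zero z) hτU
  refine ⟨(cls _ 2).hom (mkCyc D (Rep.coind H.subtype B) 2 σ ⟨F, hF, hN, hσU⟩ hσ), ?_⟩
  rw [sh_cls]
  congr 1
  apply lcVal_injective
  rw [lcVal_cycMap_shCo, lcVal_mkCyc]
  exact hsh

/-- (SH-inj) in degree `2`. -/
theorem shInj_two : ShInjStatement 2 := by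
  intro G _ k _ D H D' h hH B
  rw [injective_iff_map_eq_zero]
  intro x hx
  obtain ⟨R⟩ := exists_retraction H
  obtain ⟨z, rfl⟩ := cls_surjective (lcComplex D (Rep.coind H.subtype B)) 2 x
  rw [sh_cls] at hx
  obtain ⟨y, hy⟩ := (cls_eq_zero_iff (lcComplex D' B) 1 _).1 hx
  refine (cls_eq_zero_iff (lcComplex D (Rep.coind H.subtype B)) 1 z).2 ?_
  obtain ⟨F, hF, hN, hFH, hσU, hτU⟩ :=
    exists_common_sub h hH (isLC_lcValC_sh z.1) (isLC_lcValC_sh y)
  have hτ : shFun (lcVal z) = (inhomogeneousCochains.d B 1).hom (lcValC y) := by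
    rw [← shLcValC_d, hy]
    rfl
  obtain ⟨ω, hωU, hω⟩ :=
    sh_inj2_core R (D.sub_normal hN) hFH (lcVal z) (lcVal_d_eq_zero z) hσU _ hτU hτ
  refine ⟨shMkX D _ ω ⟨F, hF, hN, hωU⟩, ?_⟩
  apply lcValC_injective
  rw [shLcValC_d, lcValC_shMkX]
  exact hω

/-- (SH-inj) in degree `3`. -/
theorem shInj_three : ShInjStatement 3 := by
  intro G _ k _ D H D' h hH B
  rw [injective_iff_map_eq_zero]
  intro x hx
  obtain ⟨R⟩ := exists_retraction H
  obtain ⟨z, rfl⟩ := cls_surjective (lcComplex D (Rep.coind H.subtype B)) 3 x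
  rw [sh_cls] at hx
  obtain ⟨y, hy⟩ := (cls_eq_zero_iff (lcComplex D' B) 2 _).1 hx
  refine (cls_eq_zero_iff (lcComplex D (Rep.coind H.subtype B)) 2 z).2 ?_
  obtain ⟨F, hF, hN, hFH, hσU, hτU⟩ :=
    exists_common_sub h hH (isLC_lcValC_sh z.1) (isLC_lcValC_sh y)
  have hτ : shFun (lcVal z) = (inhomogeneousCochains.d B 2).hom (lcValC y) := by
    rw [← shLcValC_d, hy]
    rfl
  obtain ⟨ω, hωU, hω⟩ :=
    sh_inj3_core R (D.sub_normal hN) hFH (lcVal z) (lcVal_d_eq_zero z) hσU _ hτU hτ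
  refine ⟨shMkX D _ ω ⟨F, hF, hN, hωU⟩, ?_⟩
  apply lcValC_injective
  rw [shLcValC_d, lcValC_shMkX]
  exact hω

end Fermat.Agent.S55.H99
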