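/-
S55 / Program C, package C8, export (B4) (helper99): the assembly (CYC-KER) of helper29's
`H29/C8Cls.lean`, VERBATIM.

`cycKer_of : CyclicExStatement p → JFinStatement → JAdmStatement → JDetectStatement →
  CycKerStatement p`:
in a cyclic layer `K/k` of `p`-power degree over `k ∋ μ_p`, a class `y ∈ H²(Gal(K/k), J_K)` whose
local invariants add up to `0` comes from `H²(Gal(K/k), Kˣ)`.

Proof (the docstring of `H29.CycKerStatement`): the family `t v := jinv k K v y` is finitely
supported (J-FIN), killed by the local degrees (J-ADM) and has sum `0`; the existence statement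
(B3) for the cyclic layer gives `α` with `linv v α = t v`; by `H29.jinv_ideleDiag` the class
`diag α - y` has all local invariants `0`, hence is `0` (J-DETECT).
-/
import Fermat.Agent.S55.H29.C8Cls

set_option autoImplicit false

open CategoryTheory groupCohomology Rep

noncomputable section

namespace Fermat.Agent.S55.H99

open Fermat.Agent.S55.H29 Fermat.Agent.S55.H88 Fermat.Agent.S55.H66

/-- **(CYC-KER)** from (B3) for cyclic layers, J-FIN, J-ADM and J-DETECT. -/
theorem cycKer_of {p : ℕ} (hEx : CyclicExStatement p) (hFin : JFinStatement)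
    (hAdm : JAdmStatement) (hDet : JDetectStatement) : CycKerStatement p := by
  intro hp hp2 k K _ _ _ _ _ _ _ hζ hn y hy
  obtain ⟨α, hα⟩ := hEx hp hp2 k K hζ hn (fun v => jinv k K v y) (hFin k K y)
    (fun v => hAdm k K y v) hy
  refine ⟨α, ?_⟩
  have h := hDet k K (mapH2 (ideleDiag k K) α - y) (fun v => by
    rw [map_sub, jinv_ideleDiag, sub_eq_zero]
    exact hα v)
  exact sub_eq_zero.mp h

end Fermat.Agent.S55.H99
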