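/-
S55 / Program C, package C8, export (B4) (helper99): the `p`-group dévissage for a class module,
model-independent.

`P Γ C` is any property of a finite group `Γ` with a `ℤ`-linear representation `C` (in the
application: "`C` is the idèle class module of a Galois layer with group `Γ`") that is stable
under restriction to normal subgroups and such that for every normal subgroup `N` of index `p`
the quotient layer has `H¹(Γ ⧸ N, C^N) = 0` and `#H²(Γ ⧸ N, C^N) ∣ p` (the prime layer: first
and second inequality).  Then for every `p`-group `Γ`: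

  `H¹(Γ, C) = 0`  and  `#H²(Γ, C) ∣ #Γ`.

Proof: induction on the order, a subgroup of index `p` of a `p`-group is normal, inflation–
restriction in degrees `1` (Mathlib) and `2` (helper84's `H84.natCard_H2_dvd_mul`).
-/
import Mathlib
import Fermat.Agent.S55.H84.InfRes2

set_option autoImplicit false

open CategoryTheory groupCohomology Rep

noncomputable section

namespace Fermat.Agent.S55.H99

/-- In a group of order `p ^ (n + 1)` there is a normal subgroup of order `p ^ n` (index `p`). -/
theorem exists_normal_card_pow (p : ℕ) [Fact p.Prime] (n : ℕ) (Γ : Type) [Group Γ] [Finite Γ]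
    (hΓ : Nat.card Γ = p ^ (n + 1)) :
    ∃ N : Subgroup Γ, N.Normal ∧ Nat.card N = p ^ n ∧ N.index = p := by
  have hp : p.Prime := Fact.out
  obtain ⟨N, hN⟩ := Sylow.exists_subgroup_card_pow_prime (G := Γ) p (n := n)
    (by rw [hΓ]; exact pow_dvd_pow p n.le_succ)
  have hidx : N.index = p := by
    have h := N.card_mul_index
    rw [hN, hΓ, pow_succ] at h
    exact Nat.eq_of_mul_eq_mul_left (pow_pos hp.pos n) h
  refine ⟨N, ?_, hN, hidx⟩
  apply Subgroup.normal_of_index_eq_minFac_card
  rw [hidx, hΓ, Nat.pow_minFac n.succ_ne_zero, hp.minFac_eq]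

/-- **`p`-group dévissage for a class module.**  See the file header. -/
theorem pgroup_cls_devissage (p : ℕ) [Fact p.Prime]
    (P : ∀ (Γ : Type) [Group Γ], Rep.{0, 0, 0} ℤ Γ → Prop)
    (hres : ∀ (Γ : Type) [Group Γ] (C : Rep.{0, 0, 0} ℤ Γ) (N : Subgroup Γ) [N.Normal],
      P Γ C → P N (res N.subtype C))
    (hprime : ∀ (Γ : Type) [Group Γ] (C : Rep.{0, 0, 0} ℤ Γ) (N : Subgroup Γ) [N.Normal],
      P Γ C → N.index = p →
      Limits.IsZero (groupCohomology (C.quotientToInvariants N) 1) ∧
        Nat.card (groupCohomology (C.quotientToInvariants N) 2) ∣ p) :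
    ∀ (n : ℕ) (Γ : Type) [Group Γ] [Finite Γ] (C : Rep.{0, 0, 0} ℤ Γ), P Γ C →
      Nat.card Γ = p ^ n →
      Limits.IsZero (groupCohomology C 1) ∧ Nat.card (groupCohomology C 2) ∣ p ^ n := by
  intro n
  induction n with
  | zero =>
    intro Γ _ _ C _ hΓ
    rw [pow_zero] at hΓ
    have hsub : Subsingleton Γ := (Nat.card_eq_one_iff_unique.1 hΓ).1
    refine ⟨isZero_groupCohomology_succ_of_subsingleton C 0, ?_⟩
    have h2 : Limits.IsZero (groupCohomology C 2) := isZero_groupCohomology_succ_of_subsingleton C 1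
    have hs : Subsingleton (groupCohomology C 2) := ModuleCat.subsingleton_of_isZero h2
    rw [pow_zero, Nat.card_unique]
  | succ n ih =>
    intro Γ _ _ C hC hΓ
    obtain ⟨N, hNn, hNcard, hNidx⟩ := exists_normal_card_pow p n Γ hΓ
    obtain ⟨h1N, h2N⟩ := ih N (res N.subtype C) (hres Γ C N hC) hNcard
    obtain ⟨h1q, h2q⟩ := hprime Γ C N hC hNidx
    refine ⟨H84.isZero_H1_of_isZero C N h1q h1N, ?_⟩
    have h := H84.natCard_H2_dvd_mul C N h1N
    rw [pow_succ, mul_comm]
    exact h.trans (Nat.mul_dvd_mul h2q h2N)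

/-- Variant for all subgroups-as-groups at once: under the same hypotheses, for every finite
`p`-group `Γ` with `P Γ C`. -/
theorem pgroup_cls_devissage' (p : ℕ) [Fact p.Prime]
    (P : ∀ (Γ : Type) [Group Γ], Rep.{0, 0, 0} ℤ Γ → Prop)
    (hres : ∀ (Γ : Type) [Group Γ] (C : Rep.{0, 0, 0} ℤ Γ) (N : Subgroup Γ) [N.Normal],
      P Γ C → P N (res N.subtype C))
    (hprime : ∀ (Γ : Type) [Group Γ] (C : Rep.{0, 0, 0} ℤ Γ) (N : Subgroup Γ) [N.Normal],
      P Γ C → N.index = p →
      Limits.IsZero (groupCohomology (C.quotientToInvariants N) 1) ∧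
        Nat.card (groupCohomology (C.quotientToInvariants N) 2) ∣ p)
    (Γ : Type) [Group Γ] [Finite Γ] (hΓ : IsPGroup p Γ) (C : Rep.{0, 0, 0} ℤ Γ) (hC : P Γ C) :
    Limits.IsZero (groupCohomology C 1) ∧
      Nat.card (groupCohomology C 2) ∣ Nat.card Γ := by
  obtain ⟨n, hn⟩ := IsPGroup.iff_card.1 hΓ
  rw [hn]
  exact pgroup_cls_devissage p P hres hprime n Γ C hC hn

end Fermat.Agent.S55.H99
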