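/-
S55 / Program C, package C10 (helper12), leaf CD-c of Route R (helper99):
coinduction preserves admissibility.

If `G_L ≤ H` for a level field `L` and `G_L` acts trivially on the finite-dimensional
`H`-representation `N`, then `Coind_H^{G_ℚ} N` is admissible: `G_L` (normal in `G_ℚ`) acts
trivially on it, and it embeds into the finite product `(G_ℚ / G_L) → N`.
-/
import Fermat.Agent.S55.H12.CDDefs

set_option autoImplicit false

open CategoryTheory Module

noncomputable section

namespace Fermat.Agent.S55.H99

open Fermat.Agent.S55.H70 Fermat.Agent.S55.H12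

variable (p : ℕ) [Fact p.Prime] (S : Finset Nat.Primes)

/-- An element of `Coind_H N` is right-invariant under a normal subgroup `U ≤ H` acting trivially
on `N`. -/
theorem coind_right_invariant (H U : Subgroup GQ) (hU : U.Normal) (hUH : U ≤ H)
    (N : Rep.{0, 0, 0} (ZMod p) H)
    (htriv : ∀ u : H, (u : GQ) ∈ U → ∀ n : N, N.ρ u n = n)
    (f : Rep.coind H.subtype N) (g s : GQ) (hs : s ∈ U) : f.1 (g * s) = f.1 g := by
  have hmem : g * s * g⁻¹ ∈ U := hU.conj_mem s hs g
  have h1 : g * s = H.subtype (⟨g * s * g⁻¹, hUH hmem⟩ : H) * g := by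
    simp
  rw [h1, f.2 ⟨g * s * g⁻¹, hUH hmem⟩ g]
  exact htriv _ hmem _

/-- The evaluation map of `Coind_H N` at the chosen coset representatives of `G_ℚ / U`. -/
def coindEval (H U : Subgroup GQ) (N : Rep.{0, 0, 0} (ZMod p) H) :
    (Rep.coind H.subtype N) →ₗ[ZMod p] (GQ ⧸ U → N) where
  toFun f := fun c => f.1 c.out
  map_add' _ _ := rfl
  map_smul' _ _ := rfl

theorem coindEval_injective (H U : Subgroup GQ) (hU : U.Normal) (hUH : U ≤ H)
    (N : Rep.{0, 0, 0} (ZMod p) H)
    (htriv : ∀ u : H, (u : GQ) ∈ U → ∀ n : N, N.ρ u n = n) :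
    Function.Injective (coindEval p H U N) := by
  intro f f' hff'
  apply Subtype.ext
  funext g
  obtain ⟨u, hu⟩ := QuotientGroup.mk_out_eq_mul U g
  have h0 : f.1 (g : GQ ⧸ U).out = f'.1 (g : GQ ⧸ U).out := congrFun hff' (g : GQ ⧸ U)
  rw [hu, coind_right_invariant p H U hU hUH N htriv f g u u.2,
    coind_right_invariant p H U hU hUH N htriv f' g u u.2] at h0
  exact h0

/-- (CD-c) Coinduction preserves admissibility. -/
theorem coindAdm : CoindAdmStatement p S := by
  intro L hL H hLH N hfd htriv
  have hN : (L.fixingSubgroup).Normal := normal_fixingSubgroup_level p S L hL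
  have hfin : Finite (GQ ⧸ L.fixingSubgroup) := finite_quotient_level p S L hL
  have htr : ∀ s ∈ L.fixingSubgroup, ∀ m : Rep.coind H.subtype N,
      (Rep.coind H.subtype N).ρ s m = m := by
    intro s hs f
    apply Subtype.ext
    funext g
    exact coind_right_invariant p H L.fixingSubgroup hN hLH N htriv f g s hs
  haveI : FiniteDimensional (ZMod p) (Rep.coind H.subtype N) :=
    FiniteDimensional.of_injective (coindEval p H L.fixingSubgroup N)
      (coindEval_injective p H L.fixingSubgroup hN hLH N htriv)
  exact isAdm_of_level p S _ L hL htr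

end Fermat.Agent.S55.H99
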