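/-
S55 / Program C, package C1 / C8 tool (helper99): "the kernel of restriction is killed by the
index" in EVERY positive degree, by dimension shifting.

* `index_smul_eq_zero_of_res_eq_zero_succ` : `S ≤ G` of finite index, `x ∈ Hⁿ⁺¹(G, A)` with
  `res_S x = 0`  ⟹  `[G : S] • x = 0`   (degrees 1, 2: helper80's `H80.index_smul_eq_zero_of_
  res_eq_zero`; the induction step uses helper73's dimension shift `H73.shiftIso` — the same
  module `dimShift A` for all subgroups — and helper71's `H71.δ_map_naturality`);
* `card_smul_eq_zero_succ` : `Hⁿ⁺¹(G, A)` of a finite group is killed by `|G|`;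
* `eq_zero_of_res_eq_zero_of_pPrimary` : a `p`-primary class of `Hⁿ⁺¹(G, A)` whose restriction to
  a subgroup of index prime to `p` vanishes is zero (the element form of the Sylow reduction, as
  consumed by `H29.h3_sylow` in degree 3);
* `exists_coprime_smul_eq_zero_of_res_eq_zero` : the same in the literal shape of the hypothesis
  `hres'` of `H29.h3_sylow`.
-/
import Mathlib
import Fermat.Agent.S55.H71.ShapiroAll
import Fermat.Agent.S55.H80.ResIndex

set_option autoImplicit false

universe u

open CategoryTheory groupCohomology Rep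

namespace Fermat.Agent.S55.H99

open Fermat.Agent.S55.H73

variable {k G : Type u} [CommRing k] [Group G]

/-- The dimension-shift connecting homomorphisms commute with restriction to a subgroup, in every
degree. -/
theorem shift_δ_res (A : Rep.{u} k G) (S : Subgroup G) (n : ℕ)
    (c : groupCohomology (dimShift A) (n + 1)) :
    (δ (shiftSES_res_shortExact A S) (n + 1) (n + 2) rfl).hom
        ((map S.subtype (𝟙 (res S.subtype (dimShift A))) (n + 1)).hom c) =
      (map S.subtype (𝟙 (res S.subtype A)) (n + 2)).hom
        ((δ (shiftSES_shortExact A) (n + 1) (n + 2) rfl).hom c) := by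
  have h := Fermat.Agent.S55.H71.δ_map_naturality (X := shiftSES A)
    (Y := (shiftSES A).map (resFunctor S.subtype)) S.subtype (shiftSES_shortExact A)
    (shiftSES_res_shortExact A S)
    (𝟙 (res S.subtype (shiftSES A).X₁) :
      res S.subtype (shiftSES A).X₁ ⟶ ((shiftSES A).map (resFunctor S.subtype)).X₁)
    (𝟙 (res S.subtype (shiftSES A).X₂) :
      res S.subtype (shiftSES A).X₂ ⟶ ((shiftSES A).map (resFunctor S.subtype)).X₂)
    (𝟙 (res S.subtype (shiftSES A).X₃) :
      res S.subtype (shiftSES A).X₃ ⟶ ((shiftSES A).map (resFunctor S.subtype)).X₃)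
    ((Category.comp_id _).trans (Category.id_comp _).symm)
    ((Category.comp_id _).trans (Category.id_comp _).symm) (n + 1) (n + 2) rfl
  exact (congrArg (fun f => f.hom c) h).symm

/-- **The kernel of restriction is killed by the index, all positive degrees.** -/
theorem index_smul_eq_zero_of_res_eq_zero_succ (n : ℕ) :
    ∀ (A : Rep.{u} k G) (S : Subgroup G) [S.FiniteIndex] (x : groupCohomology A (n + 1)),
      (map S.subtype (𝟙 (res S.subtype A)) (n + 1)).hom x = 0 → S.index • x = 0 := by
  induction n with
  | zero =>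
    intro A S _ x hx
    exact Fermat.Agent.S55.H80.index_smul_eq_zero_of_res_eq_zero A S 1 (Or.inl rfl) x hx
  | succ n ih =>
    intro A S _ x hx
    -- `x = δ c`
    obtain ⟨c, hc⟩ : ∃ c : groupCohomology (dimShift A) (n + 1),
        (δ (shiftSES_shortExact A) (n + 1) (n + 2) rfl).hom c = x :=
      ⟨(shiftIsoTop A n).inv.hom x, by
        have h := (shiftIsoTop A n).inv_hom_id
        exact congrArg (fun f => f.hom x) h⟩
    have h1 := shift_δ_res A S n c
    rw [hc] at h1
    have h1' : (δ (shiftSES_res_shortExact A S) (n + 1) (n + 2) rfl).hom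
        ((map S.subtype (𝟙 (res S.subtype (dimShift A))) (n + 1)).hom c) = 0 := h1.trans hx
    -- `δ_S` is injective
    have h2 : (map S.subtype (𝟙 (res S.subtype (dimShift A))) (n + 1)).hom c = 0 := by
      have h3 : (shiftIso A S n).hom.hom
          ((map S.subtype (𝟙 (res S.subtype (dimShift A))) (n + 1)).hom c) = 0 := h1'
      have h4 := congrArg (fun f => f.hom
        ((map S.subtype (𝟙 (res S.subtype (dimShift A))) (n + 1)).hom c)) (shiftIso A S n).hom_inv_id
      have h5 : (shiftIso A S n).inv.hom ((shiftIso A S n).hom.hom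
          ((map S.subtype (𝟙 (res S.subtype (dimShift A))) (n + 1)).hom c)) =
          (map S.subtype (𝟙 (res S.subtype (dimShift A))) (n + 1)).hom c := h4
      rw [← h5, h3, map_zero]
    have h6 := ih (dimShift A) S c h2
    have h7 : (δ (shiftSES_shortExact A) (n + 1) (n + 2) rfl).hom (S.index • c) = S.index • x := by
      rw [map_nsmul]
      exact congrArg (fun y => S.index • y) hc
    exact h7.symm.trans ((congrArg _ h6).trans (map_zero _))

/-- `Hⁿ⁺¹(G, A)` of a finite group is killed by `|G|`. -/
theorem card_smul_eq_zero_succ [Finite G] (A : Rep.{u} k G) (n : ℕ)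
    (x : groupCohomology A (n + 1)) : Nat.card G • x = 0 := by
  have hz : Limits.IsZero (groupCohomology (res (⊥ : Subgroup G).subtype A) (n + 1)) :=
    isZero_groupCohomology_succ_of_subsingleton _ n
  have hs := ModuleCat.subsingleton_of_isZero hz
  have h := index_smul_eq_zero_of_res_eq_zero_succ n A (⊥ : Subgroup G) x (Subsingleton.elim _ _)
  rwa [Subgroup.index_bot] at h

/-- **Sylow reduction, element form, all positive degrees.**  A `p`-primary class whose
restriction to a subgroup of index prime to `p` vanishes is zero. -/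
theorem eq_zero_of_res_eq_zero_of_pPrimary (A : Rep.{u} k G) (S : Subgroup G) [S.FiniteIndex]
    (p : ℕ) (hp : p.Prime) (hS : ¬ p ∣ S.index) (n : ℕ) (x : groupCohomology A (n + 1))
    (hxp : ∃ j : ℕ, p ^ j • x = 0)
    (hx : (map S.subtype (𝟙 (res S.subtype A)) (n + 1)).hom x = 0) : x = 0 := by
  obtain ⟨j, hj⟩ := hxp
  have h1 := index_smul_eq_zero_of_res_eq_zero_succ n A S x hx
  have hc : Nat.Coprime S.index (p ^ j) :=
    Nat.Coprime.pow_right j ((Nat.Prime.coprime_iff_not_dvd hp).2 hS).symm
  rw [← addOrderOf_dvd_iff_nsmul_eq_zero] at h1 hj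
  have h2 : addOrderOf x ∣ Nat.gcd S.index (p ^ j) := Nat.dvd_gcd h1 hj
  rw [hc] at h2
  exact AddMonoid.addOrderOf_eq_one_iff.mp (Nat.dvd_one.mp h2)

/-- The literal shape of the hypothesis `hres'` of `H29.h3_sylow`: a class of `Hⁿ⁺¹(G, A)` with
zero restriction to a subgroup of index prime to `p` is killed by an integer prime to `p`. -/
theorem exists_coprime_smul_eq_zero_of_res_eq_zero (A : Rep.{u} k G) (S : Subgroup G)
    [S.FiniteIndex] (p : ℕ) (hp : p.Prime) (hS : ¬ p ∣ S.index) (n : ℕ)
    (y : groupCohomology A (n + 1))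
    (hy : (map S.subtype (𝟙 (res S.subtype A)) (n + 1)).hom y = 0) :
    ∃ m : ℕ, m.Coprime p ∧ m • y = 0 :=
  ⟨S.index, ((Nat.Prime.coprime_iff_not_dvd hp).2 hS).symm,
    index_smul_eq_zero_of_res_eq_zero_succ n A S y hy⟩

end Fermat.Agent.S55.H99
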