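/-
S55 / Program C, package C9b, sub-package (SH) (helper99): the three Shapiro leaves in the
VERBATIM form of helper49's statement file `H49/ShapiroDefs.lean`:

  `shInj_two_h49 : H49.ShInjStatement 2`,  `shInj_three_h49 : H49.ShInjStatement 3`,
  `shSurj_two_h49 : H49.ShSurjStatement 2`.

They are the special case `B := Res_H A`, `D' := D.restrict H` of `H99/Shapiro.lean`.
-/
import Fermat.Agent.S55.H99.Shapiro
import Fermat.Agent.S55.H49.ShapiroDefs

set_option autoImplicit false

open CategoryTheory groupCohomology

noncomputable section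

namespace Fermat.Agent.S55.H99

variable {G : Type} [Group G] {k : Type} [CommRing k]

/-- helper49's restricted datum is a restriction in the sense of `IsRestrict`. -/
theorem isRestrict_h49 (D : H49.LevelDatum G) (H : Subgroup G) :
    IsRestrict D H (D.restrict H) :=
  ⟨fun _ => rfl, fun _ => Iff.rfl⟩

/-- helper49's Shapiro map is the special case `B := Res_H A` of `H99.sh`. -/
theorem sh_h49_eq (D : H49.LevelDatum G) (H : Subgroup G) (A : Rep.{0} k G) (n : ℕ) :
    (H49.sh D H A n).hom = sh (isRestrict_h49 D H) (Rep.res H.subtype A) n := rfl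

/-- (SH-inj), degree `2`, verbatim `H49.ShInjStatement 2`. -/
theorem shInj_two_h49 : H49.ShInjStatement 2 := fun k _ G _ D H A hH =>
  shInj_two G k D H (D.restrict H) (isRestrict_h49 D H) hH (Rep.res H.subtype A)

/-- (SH-inj), degree `3`, verbatim `H49.ShInjStatement 3`. -/
theorem shInj_three_h49 : H49.ShInjStatement 3 := fun k _ G _ D H A hH =>
  shInj_three G k D H (D.restrict H) (isRestrict_h49 D H) hH (Rep.res H.subtype A)

/-- (SH-surj), degree `2`, verbatim `H49.ShSurjStatement 2`. -/
theorem shSurj_two_h49 : H49.ShSurjStatement 2 := fun k _ G _ D H A hH =>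
  shSurj_two G k D H (D.restrict H) (isRestrict_h49 D H) hH (Rep.res H.subtype A)

end Fermat.Agent.S55.H99
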