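/-
S55 / Program C, package C9b, sub-package (SH) (helper99): Shapiro's lemma for level-constant
cohomology in degree `1`:

  `shInj_one : ShInjStatement 1`,  `shSurj_one : ShSurjStatement 1`

(same method as `H99/Shapiro.lean`: retraction `G → H` and the prism identity in degree `1`).
-/
import Fermat.Agent.S55.H99.Shapiro

set_option autoImplicit false

open CategoryTheory groupCohomology

noncomputable section

namespace Fermat.Agent.S55.H99

open Fermat.Agent.S55.H49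

variable {G : Type} [Group G] {k : Type} [CommRing k]

theorem vec0_eta {α : Type} (g : Fin 0 → α) : g = ![] := Subsingleton.elim _ _

theorem d0_apply (M : Rep.{0} k G) (f : (Fin 0 → G) → M) (a : G) :
    (inhomogeneousCochains.d M 0).hom f ![a] = M.ρ a (f ![]) - f ![] := by
  rw [inhomogeneousCochains.d_hom_apply, Fin.sum_univ_one]
  have e0 : (fun i : Fin 0 => ![a] i.succ) = ![] := Subsingleton.elim _ _
  have e1 : Fin.contractNth (0 : Fin 1) (· * ·) ![a] = ![] := Subsingleton.elim _ _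
  rw [e1]
  simp only [Matrix.cons_val_zero, e0]
  simp [pow_succ]
  abel

theorem prism1 {X M : Type} [AddCommGroup M] (Φ : X → X → M) (r : X → X)
    (hΦ : ∀ a b c, Φ b c - Φ a c + Φ a b = 0) (a b : X) :
    Φ a b - Φ (r a) (r b) = Φ (r b) b - Φ (r a) a := by
  have h0 := hΦ (r a) a b
  have h1 := hΦ (r a) (r b) b
  linear_combination (norm := abel) h0 - h1

section Deg1

variable {H : Subgroup G} {B : Rep.{0} k H}

/-- Homogeneous form of a `0`-cochain. -/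
def hom0 (ω : (Fin 0 → G) → Rep.coind H.subtype B) (a : G) : B := (ω ![]).1 a

theorem d0_eval (ω : (Fin 0 → G) → Rep.coind H.subtype B) (x g1 : G) :
    ((inhomogeneousCochains.d (Rep.coind H.subtype B) 0).hom ω ![g1]).1 x =
      hom0 ω (x * g1) - hom0 ω x := by
  rw [d0_apply]
  rfl

theorem hom1_cocycle (σ : (Fin 1 → G) → Rep.coind H.subtype B)
    (hσ : (inhomogeneousCochains.d (Rep.coind H.subtype B) 1).hom σ = 0) (a b c : G) :
    hom1 σ b c - hom1 σ a c + hom1 σ a b = 0 := by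
  rw [← d1_hom, hσ]
  rfl

/-- Homogeneous form of a `0`-cochain of `H`. -/
def homH0 (τ : (Fin 0 → H) → B) (a : H) : B := B.ρ a (τ ![])

theorem homH0_smul (τ : (Fin 0 → H) → B) (h a : H) : homH0 τ (h * a) = B.ρ h (homH0 τ a) := by
  unfold homH0
  rw [ρ_mul_apply]

theorem dH0_hom (τ : (Fin 0 → H) → B) (a b : H) :
    B.ρ a ((inhomogeneousCochains.d B 0).hom τ ![a⁻¹ * b]) = homH0 τ b - homH0 τ a := by
  rw [d0_apply, map_sub, ρ_mul_apply, mul_inv_cancel_left]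
  rfl

theorem hom1_coe (σ : (Fin 1 → G) → Rep.coind H.subtype B) (a b : H) :
    hom1 σ (a : G) (b : G) = B.ρ a (shFun σ ![a⁻¹ * b]) := by
  have e : (fun i => ((![a⁻¹ * b] : Fin 1 → H) i : G)) = ![(a : G)⁻¹ * (b : G)] := by
    funext i; fin_cases i; rfl
  show (σ ![(a : G)⁻¹ * (b : G)]).1 (a : G) =
    B.ρ a ((σ (fun i => ((![a⁻¹ * b] : Fin 1 → H) i : G))).1 1)
  rw [e, ← coind_equivariant, mul_one]

theorem hom1_rinv {U : Subgroup G} (hU : U.Normal) (σ : (Fin 1 → G) → Rep.coind H.subtype B)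
    (hσ : IsLCAt U (Rep.coind H.subtype B) σ) : RInv2 U (hom1 σ) := by
  intro a b u v hu hv
  have e : σ ![a⁻¹ * b] = σ ![(a * u)⁻¹ * (b * v)] := by
    refine hσ.congr fun i => ?_
    fin_cases i
    exact slot_mem hU a b u v hu hv
  show (σ ![(a * u)⁻¹ * (b * v)]).1 (a * u) = (σ ![a⁻¹ * b]).1 a
  rw [← e, ← coind_ρ_apply, hσ.2 _ u hu]

/-- The `0`-cochain with homogeneous form `Ω`. -/
def coch0 (Ω : G → B) (hΩ : ∀ (h : H) (a : G), Ω ((h : G) * a) = B.ρ h (Ω a)) :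
    (Fin 0 → G) → Rep.coind H.subtype B :=
  fun _ => ⟨Ω, fun h x => hΩ h x⟩

theorem hom0_coch0 (Ω : G → B) (hΩ : ∀ (h : H) (a : G), Ω ((h : G) * a) = B.ρ h (Ω a)) (a : G) :
    hom0 (coch0 Ω hΩ) a = Ω a := rfl

theorem isLCAt_coch0 {U : Subgroup G} (Ω : G → B)
    (hΩ : ∀ (h : H) (a : G), Ω ((h : G) * a) = B.ρ h (Ω a))
    (hΩ' : ∀ a u, u ∈ U → Ω (a * u) = Ω a) :
    IsLCAt U (Rep.coind H.subtype B) (coch0 Ω hΩ) := by
  refine ⟨fun g s _ => rfl, fun g u hu => ?_⟩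
  apply Subtype.ext
  funext x
  exact hΩ' x u hu

variable (R : Retraction H)

/-- The homogeneous form of the primitive, degree `1`. -/
def prismΩ0 (σ : (Fin 1 → G) → Rep.coind H.subtype B) (τ : (Fin 0 → H) → B) (a : G) : B :=
  hom1 σ (R.r a) a + homH0 τ (R.r a)

theorem prismΩ0_smul (σ : (Fin 1 → G) → Rep.coind H.subtype B) (τ : (Fin 0 → H) → B) (h : H)
    (a : G) : prismΩ0 R σ τ ((h : G) * a) = B.ρ h (prismΩ0 R σ τ a) := by
  unfold prismΩ0
  rw [R.equiv, Subgroup.coe_mul, hom1_smul, homH0_smul, map_add]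

theorem prismΩ0_rinv {U : Subgroup G} (hU : U.Normal) (hUH : U ≤ H)
    (σ : (Fin 1 → G) → Rep.coind H.subtype B) (hσU : IsLCAt U (Rep.coind H.subtype B) σ)
    (τ : (Fin 0 → H) → B) (hτU : IsLCAt (U.subgroupOf H) B τ) (a u : G) (hu : u ∈ U) :
    prismΩ0 R σ τ (a * u) = prismΩ0 R σ τ a := by
  have h1 : hom1 σ (R.r (a * u)) (a * u) = hom1 σ (R.r a) a := by
    rw [R.coe_apply_mul a u]
    exact hom1_rinv hU σ hσU _ _ _ _ (R.apply_mul_mem hU hUH a u hu) hu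
  have h2 : homH0 τ (R.r (a * u)) = homH0 τ (R.r a) := by
    unfold homH0
    rw [R.apply_mul a u, ← ρ_mul_apply, hτU.2 _ _ (R.apply_mul_mem_subgroupOf hU hUH a u hu)]
  unfold prismΩ0
  rw [h1, h2]

include R in
theorem sh_inj1_core {U : Subgroup G} (hU : U.Normal) (hUH : U ≤ H)
    (σ : (Fin 1 → G) → Rep.coind H.subtype B)
    (hσ : (inhomogeneousCochains.d (Rep.coind H.subtype B) 1).hom σ = 0)
    (hσU : IsLCAt U (Rep.coind H.subtype B) σ)
    (τ : (Fin 0 → H) → B) (hτU : IsLCAt (U.subgroupOf H) B τ)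
    (hτ : shFun σ = (inhomogeneousCochains.d B 0).hom τ) :
    ∃ ω : (Fin 0 → G) → Rep.coind H.subtype B, IsLCAt U (Rep.coind H.subtype B) ω ∧
      (inhomogeneousCochains.d (Rep.coind H.subtype B) 0).hom ω = σ := by
  refine ⟨coch0 (prismΩ0 R σ τ) (prismΩ0_smul R σ τ),
    isLCAt_coch0 _ _ (prismΩ0_rinv R hU hUH σ hσU τ hτU), ?_⟩
  funext g
  obtain ⟨g1, rfl⟩ : ∃ a, g = ![a] := ⟨g 0, vec1_eta g⟩
  apply Subtype.ext
  funext x
  rw [d0_eval, hom0_coch0, hom0_coch0, hom1_eval]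
  have hp := prism1 (hom1 σ) (fun g => (R.r g : G)) (hom1_cocycle σ hσ) x (x * g1)
  have hc : hom1 σ (R.r x) (R.r (x * g1)) = homH0 τ (R.r (x * g1)) - homH0 τ (R.r x) := by
    rw [hom1_coe, hτ, dH0_hom]
  unfold prismΩ0
  linear_combination (norm := abel) -hp - hc

/-- The homogeneous form of the lift of a `1`-cochain of `H`. -/
def liftΩ1 (τ : (Fin 1 → H) → B) (a b : G) : B := homH1 τ (R.r a) (R.r b)

theorem liftΩ1_smul (τ : (Fin 1 → H) → B) (h : H) (a b : G) :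
    liftΩ1 R τ ((h : G) * a) ((h : G) * b) = B.ρ h (liftΩ1 R τ a b) := by
  unfold liftΩ1
  rw [R.equiv, R.equiv, homH1_smul]

include R in
theorem sh_surj1_core {U : Subgroup G} (hU : U.Normal) (hUH : U ≤ H)
    (τ : (Fin 1 → H) → B) (hτ : (inhomogeneousCochains.d B 1).hom τ = 0)
    (hτU : IsLCAt (U.subgroupOf H) B τ) :
    ∃ σ : (Fin 1 → G) → Rep.coind H.subtype B, IsLCAt U (Rep.coind H.subtype B) σ ∧
      (inhomogeneousCochains.d (Rep.coind H.subtype B) 1).hom σ = 0 ∧ shFun σ = τ := by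
  have hV : (U.subgroupOf H).Normal := hU.subgroupOf H
  refine ⟨coch1 (liftΩ1 R τ) (liftΩ1_smul R τ),
    isLCAt_coch1 hU _ _ (rinv2_comp R hU hUH (homH1_rinv hV τ hτU)), ?_, ?_⟩
  · funext g
    obtain ⟨g1, g2, rfl⟩ : ∃ a b, g = ![a, b] := ⟨g 0, g 1, vec2_eta g⟩
    apply Subtype.ext
    funext x
    rw [d1_eval, hom1_coch1, hom1_coch1, hom1_coch1]
    unfold liftΩ1
    rw [← dH1_hom, hτ]
    exact map_zero _
  · funext g
    show homH1 τ (R.r 1) (R.r (1 * (g 0 : G))) = τ g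
    rw [one_mul, R.one, R.apply_coe]
    unfold homH1
    rw [inv_one, one_mul, map_one, ← vec1_eta g]
    rfl

end Deg1

/-- (SH-surj) in degree `1`. -/
theorem shSurj_one : ShSurjStatement 1 := by
  intro G _ k _ D H D' h hH B x
  obtain ⟨R⟩ := exists_retraction H
  obtain ⟨z, rfl⟩ := cls_surjective (lcComplex D' B) 1 x
  obtain ⟨F, hF, hN, hFH, hτU⟩ := exists_sub_of_isLC h hH (isLC_lcValC_sh z.1)
  obtain ⟨σ, hσU, hσ, hsh⟩ :=
    sh_surj1_core R (D.sub_normal hN) hFH (lcVal z) (lcVal_d_eq_zero z) hτU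
  refine ⟨(cls _ 1).hom (mkCyc D (Rep.coind H.subtype B) 1 σ ⟨F, hF, hN, hσU⟩ hσ), ?_⟩
  rw [sh_cls]
  congr 1
  apply lcVal_injective
  rw [lcVal_cycMap_shCo, lcVal_mkCyc]
  exact hsh

/-- (SH-inj) in degree `1`. -/
theorem shInj_one : ShInjStatement 1 := by
  intro G _ k _ D H D' h hH B
  rw [injective_iff_map_eq_zero]
  intro x hx
  obtain ⟨R⟩ := exists_retraction H
  obtain ⟨z, rfl⟩ := cls_surjective (lcComplex D (Rep.coind H.subtype B)) 1 x
  rw [sh_cls] at hx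
  obtain ⟨y, hy⟩ := (cls_eq_zero_iff (lcComplex D' B) 0 _).1 hx
  refine (cls_eq_zero_iff (lcComplex D (Rep.coind H.subtype B)) 0 z).2 ?_
  obtain ⟨F, hF, hN, hFH, hσU, hτU⟩ :=
    exists_common_sub h hH (isLC_lcValC_sh z.1) (isLC_lcValC_sh y)
  have hτ : shFun (lcVal z) = (inhomogeneousCochains.d B 0).hom (lcValC y) := by
    rw [← shLcValC_d, hy]
    rfl
  obtain ⟨ω, hωU, hω⟩ :=
    sh_inj1_core R (D.sub_normal hN) hFH (lcVal z) (lcVal_d_eq_zero z) hσU _ hτU hτ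
  refine ⟨shMkX D _ ω ⟨F, hF, hN, hωU⟩, ?_⟩
  apply lcValC_injective
  rw [shLcValC_d, lcValC_shMkX]
  exact hω

end Fermat.Agent.S55.H99
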