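/-
S55 / Program C, package C9b, sub-package (SH) (helper99): Shapiro in degree `1` in the VERBATIM
form of helper49's statement file `H49/ShapiroDefs.lean`:

  `shInj_one_h49 : H49.ShInjStatement 1`,  `shSurj_one_h49 : H49.ShSurjStatement 1`.
-/
import Fermat.Agent.S55.H99.ShapiroOne
import Fermat.Agent.S55.H99.ShapiroH49

set_option autoImplicit false

open CategoryTheory groupCohomology

noncomputable section

namespace Fermat.Agent.S55.H99

/-- (SH-inj), degree `1`, verbatim `H49.ShInjStatement 1`. -/
theorem shInj_one_h49 : H49.ShInjStatement 1 := fun k _ G _ D H A hH =>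
  shInj_one G k D H (D.restrict H) (isRestrict_h49 D H) hH (Rep.res H.subtype A)

/-- (SH-surj), degree `1`, verbatim `H49.ShSurjStatement 1`. -/
theorem shSurj_one_h49 : H49.ShSurjStatement 1 := fun k _ G _ D H A hH =>
  shSurj_one G k D H (D.restrict H) (isRestrict_h49 D H) hH (Rep.res H.subtype A)

end Fermat.Agent.S55.H99
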